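import Mathlib.Algebra.BigOperators.Finprod
import Mathlib.Algebra.Group.Even
import Mathlib.Algebra.Group.TypeTags.Basic
import Mathlib.Algebra.Ring.Int.Parity
import Mathlib.Tactic

/-!
# S16, lower bound, piece (B), abstract part: crossing-count homomorphisms

For a group `G` and a function `s : G → ℤ` which is *almost right-invariant*
(for every `γ` the function `g ↦ s (g * γ) - s g` has finite support), the map
`γ ↦ ∑ᶠ g, (s (g * γ) - s g)` is additive.  If moreover `s` is invariant under left
multiplication by an element `z` that admits a "half system" `P` (`P (z * g) ↔ ¬ P g`),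
then all values are even.
-/

set_option autoImplicit false

namespace Fermat.Agent.S16.Crossing

open Function

variable {G : Type*} [Group G]

/-- the difference function `g ↦ s (g * γ) - s g` -/
def diffFun (s : G → ℤ) (γ : G) : G → ℤ := fun g => s (g * γ) - s g

/-- `s` is almost invariant under right translations -/
def AlmostInv (s : G → ℤ) : Prop := ∀ γ : G, (support (diffFun s γ)).Finite

/-- the crossing count -/
noncomputable def crossCount (s : G → ℤ) (γ : G) : ℤ := ∑ᶠ g, diffFun s γ g

theorem diffFun_mul (s : G → ℤ) (γ₁ γ₂ g : G) :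
    diffFun s (γ₁ * γ₂) g = diffFun s γ₂ (g * γ₁) + diffFun s γ₁ g := by
  simp only [diffFun, mul_assoc]
  ring

theorem support_comp_mulRight_finite {D : G → ℤ} (hD : (support D).Finite) (γ : G) :
    (support fun g => D (g * γ)).Finite := by
  have : (support fun g => D (g * γ)) = (Equiv.mulRight γ) ⁻¹' support D := by
    ext g; simp
  rw [this]
  exact hD.preimage (Equiv.injective _).injOn

theorem crossCount_mul {s : G → ℤ} (hs : AlmostInv s) (γ₁ γ₂ : G) :
    crossCount s (γ₁ * γ₂) = crossCount s γ₁ + crossCount s γ₂ := by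
  unfold crossCount
  have h1 : (fun g => diffFun s (γ₁ * γ₂) g) =
      fun g => diffFun s γ₂ (g * γ₁) + diffFun s γ₁ g := funext (diffFun_mul s γ₁ γ₂)
  rw [h1, finsum_add_distrib (support_comp_mulRight_finite (hs γ₂) γ₁) (hs γ₁)]
  have h2 : ∑ᶠ g, diffFun s γ₂ (g * γ₁) = ∑ᶠ g, diffFun s γ₂ g :=
    finsum_comp_equiv (Equiv.mulRight γ₁) (f := diffFun s γ₂)
  rw [h2, add_comm]

theorem finsum_even_of_half {D : G → ℤ} (hfin : (support D).Finite) (z : G)
    (hD : ∀ g, D (z * g) = D g) (P : G → Prop) (hP : ∀ g, P (z * g) ↔ ¬ P g) :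
    Even (∑ᶠ g, D g) := by
  classical
  have hsplit : (fun g => D g) = fun g => (if P g then D g else 0) + (if P g then 0 else D g) := by
    funext g; by_cases h : P g <;> simp [h]
  have hf1 : (support fun g => if P g then D g else 0).Finite :=
    hfin.subset (fun g hg => by
      simp only [mem_support, ne_eq] at hg ⊢
      intro h; apply hg; simp [h])
  have hf2 : (support fun g => if P g then 0 else D g).Finite :=
    hfin.subset (fun g hg => by
      simp only [mem_support, ne_eq] at hg ⊢
      intro h; apply hg; simp [h])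
  rw [hsplit, finsum_add_distrib hf1 hf2]
  have h2 : ∑ᶠ g, (if P g then 0 else D g) = ∑ᶠ g, (if P g then D g else 0) := by
    rw [← finsum_comp_equiv (Equiv.mulLeft z) (f := fun g => if P g then 0 else D g)]
    apply finsum_congr
    intro g
    simp only [Equiv.coe_mulLeft, hP g, hD g]
    by_cases h : P g <;> simp [h]
  rw [h2]
  exact ⟨_, rfl⟩

theorem crossCount_even {s : G → ℤ} (hs : AlmostInv s) (z : G) (hz : ∀ g, s (z * g) = s g)
    (P : G → Prop) (hP : ∀ g, P (z * g) ↔ ¬ P g) (γ : G) : Even (crossCount s γ) := by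
  refine finsum_even_of_half (hs γ) z (fun g => ?_) P hP
  simp only [diffFun, mul_assoc, hz]

/-- The homomorphism `γ ↦ crossCount s γ / 2`. -/
noncomputable def halfCrossHom {s : G → ℤ} (hs : AlmostInv s) (z : G) (hz : ∀ g, s (z * g) = s g)
    (P : G → Prop) (hP : ∀ g, P (z * g) ↔ ¬ P g) : G →* Multiplicative ℤ where
  toFun γ := Multiplicative.ofAdd (crossCount s γ / 2)
  map_one' := by
    have h := crossCount_mul hs 1 1
    rw [mul_one] at h
    have h0 : crossCount s 1 = 0 := by linarith
    simp [h0]
  map_mul' γ₁ γ₂ := by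
    rw [← ofAdd_add, crossCount_mul hs]
    congr 1
    obtain ⟨a, ha⟩ := crossCount_even hs z hz P hP γ₁
    obtain ⟨b, hb⟩ := crossCount_even hs z hz P hP γ₂
    rw [ha, hb]
    omega

theorem halfCrossHom_apply {s : G → ℤ} (hs : AlmostInv s) (z : G) (hz : ∀ g, s (z * g) = s g)
    (P : G → Prop) (hP : ∀ g, P (z * g) ↔ ¬ P g) (γ : G) :
    halfCrossHom hs z hz P hP γ = Multiplicative.ofAdd (crossCount s γ / 2) := rfl

end Fermat.Agent.S16.Crossing
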