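import Mathlib.NumberTheory.ModularForms.CongruenceSubgroups
import Mathlib.Tactic

/-!
# S16, lower bound, piece (B), arithmetic part

`fF a b c d = 4ac - ad - bc + 2bd` is (twice) the real part of `g z₀ · |c z₀ + d|²` for
`g = (a b; c d)` and `z₀ = (-1 + √-7)/2`; its sign tells on which side of the imaginary axis
`g z₀` lies.  All statements here are polynomial identities / inequalities over `ℤ`.
-/

set_option autoImplicit false

namespace Fermat.Agent.S16.Crossing

/-- the norm form of `ℤ[(1+√-7)/2]` -/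
def qF (x y : ℤ) : ℤ := 2 * x ^ 2 - x * y + y ^ 2

/-- the polarisation of `qF`, evaluated at the two rows of a matrix -/
def fF (a b c d : ℤ) : ℤ := 4 * a * c - a * d - b * c + 2 * b * d

/-- the mixed discriminant of the forms `A` and `γ A γᵀ` -/
def tauF (α β γ δ : ℤ) : ℤ := 8 * qF γ δ + 4 * qF α β + 2 * fF α β γ δ

theorem lagrange_fF (a b c d : ℤ) :
    fF a b c d ^ 2 + 7 * (a * d - b * c) ^ 2 = 4 * qF a b * qF c d := by
  unfold fF qF; ring

theorem mixed_fF (a b c d α β γ δ : ℤ) :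
    4 * qF a b * qF (c * α + d * γ) (c * β + d * δ)
      + 4 * qF (a * α + b * γ) (a * β + b * δ) * qF c d
      - 2 * fF a b c d * fF (a * α + b * γ) (a * β + b * δ) (c * α + d * γ) (c * β + d * δ)
      = (a * d - b * c) ^ 2 * tauF α β γ δ := by
  unfold tauF fF qF; ring

theorem qF_nonneg (x y : ℤ) : 0 ≤ qF x y := by
  unfold qF; nlinarith [sq_nonneg (x - 2 * y), sq_nonneg x]

theorem sq_le_two_qF_left (x y : ℤ) : x ^ 2 ≤ 2 * qF x y := by
  unfold qF; nlinarith [sq_nonneg (x - y), sq_nonneg x]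

theorem sq_le_two_qF_right (x y : ℤ) : y ^ 2 ≤ 2 * qF x y := by
  unfold qF; nlinarith [sq_nonneg (x - y), sq_nonneg x]

theorem qF_pos {x y : ℤ} (h : x ≠ 0 ∨ y ≠ 0) : 0 < qF x y := by
  rcases h with h | h
  · have : 0 < x ^ 2 := by positivity
    linarith [sq_le_two_qF_left x y]
  · have : 0 < y ^ 2 := by positivity
    linarith [sq_le_two_qF_right x y]

theorem abs_le_sq (x : ℤ) : |x| ≤ x ^ 2 := by
  rcases abs_cases x with ⟨h, _⟩ | ⟨h, _⟩ <;> rw [h] <;> nlinarith [sq_nonneg (x - 1), sq_nonneg (x + 1)]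

/-- Key inequality: `4 f f' ≥ 14 - τ` for matrices of determinant one. -/
theorem four_mul_fF_mul_ge (a b c d α β γ δ : ℤ) (hg : a * d - b * c = 1)
    (hγ : α * δ - β * γ = 1) :
    14 - tauF α β γ δ ≤
      4 * (fF a b c d * fF (a * α + b * γ) (a * β + b * δ) (c * α + d * γ) (c * β + d * δ)) := by
  set a' := a * α + b * γ with ha'
  set b' := a * β + b * δ with hb'
  set c' := c * α + d * γ with hc'
  set d' := c * β + d * δ with hd'
  have hg' : a' * d' - b' * c' = 1 := by
    have : a' * d' - b' * c' = (a * d - b * c) * (α * δ - β * γ) := by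
      simp only [ha', hb', hc', hd']; ring
    rw [this, hg, hγ]; norm_num
  have hL := lagrange_fF a b c d
  have hL' := lagrange_fF a' b' c' d'
  have hM := mixed_fF a b c d α β γ δ
  rw [hg] at hL hM
  rw [hg'] at hL'
  simp only [← ha', ← hb', ← hc', ← hd'] at hM
  have hn : 0 < qF c d := by
    apply qF_pos
    by_contra h
    push Not at h
    rw [h.1, h.2] at hg
    simp at hg
  have hn' : 0 < qF c' d' := by
    apply qF_pos
    by_contra h
    push Not at h
    rw [h.1, h.2] at hg'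
    simp at hg'
  set f := fF a b c d
  set f' := fF a' b' c' d'
  set m := qF a b
  set n := qF c d
  set m' := qF a' b'
  set n' := qF c' d'
  set τ := tauF α β γ δ
  have key : n * n' * (τ - 14 + 4 * (f * f')) = (n' * f + n * f') ^ 2 + 7 * (n' - n) ^ 2 := by
    have e1 : f ^ 2 = 4 * m * n - 7 := by linarith
    have e2 : f' ^ 2 = 4 * m' * n' - 7 := by linarith
    have e3 : τ = 4 * m * n' + 4 * m' * n - 2 * f * f' := by linarith
    have : (n' * f + n * f') ^ 2 + 7 * (n' - n) ^ 2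
        = n' ^ 2 * f ^ 2 + 2 * n * n' * f * f' + n ^ 2 * f' ^ 2 + 7 * (n' - n) ^ 2 := by ring
    rw [this, e1, e2, e3]; ring
  have hpos : 0 < n * n' := mul_pos hn hn'
  have h0 : 0 ≤ n * n' * (τ - 14 + 4 * (f * f')) := by
    rw [key]; positivity
  have := nonneg_of_mul_nonneg_right h0 hpos
  linarith

/-- the values of `fF` on matrices of determinant one are odd, in particular nonzero -/
theorem fF_ne_zero (a b c d : ℤ) (hg : a * d - b * c = 1) : fF a b c d ≠ 0 := by
  intro h
  have : fF a b c d = 2 * (2 * a * c - a * d + b * d) + 1 := by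
    unfold fF; linarith
  omega

/-- If `f` and `f'` have opposite signs then the entries of `g` are bounded. -/
theorem entries_bounded (a b c d α β γ δ : ℤ) (hg : a * d - b * c = 1)
    (hγ : α * δ - β * γ = 1)
    (hopp : fF a b c d * fF (a * α + b * γ) (a * β + b * δ) (c * α + d * γ) (c * β + d * δ) < 0) :
    |a| ≤ 2 * (tauF α β γ δ ^ 2 + 7) ∧ |b| ≤ 2 * (tauF α β γ δ ^ 2 + 7) ∧
    |c| ≤ 2 * (tauF α β γ δ ^ 2 + 7) ∧ |d| ≤ 2 * (tauF α β γ δ ^ 2 + 7) := by
  have hkey := four_mul_fF_mul_ge a b c d α β γ δ hg hγ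
  have hL := lagrange_fF a b c d
  rw [hg] at hL
  set f := fF a b c d
  set f' := fF (a * α + b * γ) (a * β + b * δ) (c * α + d * γ) (c * β + d * δ)
  set τ := tauF α β γ δ
  -- |f| ≤ |f f'| ≤ τ
  have hf'0 : f' ≠ 0 := by
    intro h; rw [h] at hopp; simp at hopp
  have hff : f ^ 2 ≤ (f * f') ^ 2 := by
    have : 1 ≤ f' ^ 2 := by
      have := sq_nonneg f'
      have h2 : f' ^ 2 ≠ 0 := pow_ne_zero 2 hf'0
      omega
    calc f ^ 2 = f ^ 2 * 1 := by ring
      _ ≤ f ^ 2 * f' ^ 2 := by gcongr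
      _ = (f * f') ^ 2 := by ring
  have hτ : 0 ≤ τ := by linarith
  have hff2 : (f * f') ^ 2 ≤ τ ^ 2 := by
    have h1 : -τ ≤ f * f' := by linarith
    have h2 : f * f' ≤ τ := by linarith
    exact sq_le_sq' h1 h2
  have hm0 : 0 ≤ qF a b := qF_nonneg a b
  have hn0 : 0 ≤ qF c d := qF_nonneg c d
  have hmn : 4 * qF a b * qF c d ≤ τ ^ 2 + 7 := by linarith
  have hm1 : 1 ≤ qF a b := by
    by_contra h
    have : qF a b = 0 := by omega
    rw [this] at hL
    nlinarith [sq_nonneg f]
  have hn1 : 1 ≤ qF c d := by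
    by_contra h
    have : qF c d = 0 := by omega
    rw [this] at hL
    nlinarith [sq_nonneg f]
  have hm : qF a b ≤ τ ^ 2 + 7 := by nlinarith
  have hn : qF c d ≤ τ ^ 2 + 7 := by nlinarith
  refine ⟨?_, ?_, ?_, ?_⟩
  · linarith [abs_le_sq a, sq_le_two_qF_left a b]
  · linarith [abs_le_sq b, sq_le_two_qF_right a b]
  · linarith [abs_le_sq c, sq_le_two_qF_left c d]
  · linarith [abs_le_sq d, sq_le_two_qF_right c d]

/-- The `T`-computation: `f(g) f(gT) > 0` unless `ac = 0 = bd`. -/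
theorem fF_mul_T_pos (a b c d : ℤ) (hg : a * d - b * c = 1) (h : a * c ≠ 0) :
    0 < fF a b c d * fF a (a + b) c (c + d) := by
  have e : fF a b c d * fF a (a + b) c (c + d)
      = (2 * (b * d) + 3 * (a * c)) ^ 2 + 7 * (a * c) ^ 2 - (a * d - b * c) ^ 2 := by
    unfold fF; ring
  rw [e, hg]
  have : 1 ≤ (a * c) ^ 2 := by
    have := sq_nonneg (a * c)
    have h2 : (a * c) ^ 2 ≠ 0 := pow_ne_zero 2 h
    omega
  nlinarith [sq_nonneg (2 * (b * d) + 3 * (a * c))]

end Fermat.Agent.S16.Crossing
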