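import Mathlib.NumberTheory.ModularForms.CongruenceSubgroups
import Mathlib.Tactic
import Fermat.Agent.S16.LB.CrossingAbs
import Fermat.Agent.S16.LB.CrossingForm

/-!
# S16, lower bound, piece (B): a homomorphism `Γ₀(p) → ℤ` with value `1` at `T`

`h(γ) = ½ ∑_{g ∈ Γ₀(p)} ( s(g γ) - s(g) )`, `s(g) = [Re (g z₀) > 0]`, `z₀ = (-1 + √-7)/2`
(the number of crossings of the path `z₀ → γ z₀` with the `Γ₀(p)`-translates of the imaginary
axis).  Everything is done with the integral quadratic form `fF`, no analysis.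

Main results: `crossHomGamma0`, `crossHomGamma0_T`, `exists_hom_Gamma0_T_eq_one`.
-/

set_option autoImplicit false

namespace Fermat.Agent.S16.Crossing

open scoped MatrixGroups
open Matrix Matrix.SpecialLinearGroup ModularGroup Function CongruenceSubgroup

/-- `fF` of the entries of a matrix in `SL(2, ℤ)` -/
def fSL (g : SL(2, ℤ)) : ℤ := fF (g 0 0) (g 0 1) (g 1 0) (g 1 1)

/-- `[Re (g z₀) > 0]` -/
def sSL (g : SL(2, ℤ)) : ℤ := if 0 < fSL g then 1 else 0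

theorem det_SL (g : SL(2, ℤ)) : g 0 0 * g 1 1 - g 0 1 * g 1 0 = 1 := by
  have := g.det_coe
  rw [Matrix.det_fin_two] at this
  exact this

theorem mul_SL_00 (g γ : SL(2, ℤ)) : (g * γ) 0 0 = g 0 0 * γ 0 0 + g 0 1 * γ 1 0 := by
  simp [Matrix.mul_apply, Fin.sum_univ_two]

theorem mul_SL_01 (g γ : SL(2, ℤ)) : (g * γ) 0 1 = g 0 0 * γ 0 1 + g 0 1 * γ 1 1 := by
  simp [Matrix.mul_apply, Fin.sum_univ_two]

theorem mul_SL_10 (g γ : SL(2, ℤ)) : (g * γ) 1 0 = g 1 0 * γ 0 0 + g 1 1 * γ 1 0 := by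
  simp [Matrix.mul_apply, Fin.sum_univ_two]

theorem mul_SL_11 (g γ : SL(2, ℤ)) : (g * γ) 1 1 = g 1 0 * γ 0 1 + g 1 1 * γ 1 1 := by
  simp [Matrix.mul_apply, Fin.sum_univ_two]

theorem fSL_mul (g γ : SL(2, ℤ)) :
    fSL (g * γ) = fF (g 0 0 * γ 0 0 + g 0 1 * γ 1 0) (g 0 0 * γ 0 1 + g 0 1 * γ 1 1)
      (g 1 0 * γ 0 0 + g 1 1 * γ 1 0) (g 1 0 * γ 0 1 + g 1 1 * γ 1 1) := by
  unfold fSL
  rw [mul_SL_00, mul_SL_01, mul_SL_10, mul_SL_11]

theorem fSL_ne_zero (g : SL(2, ℤ)) : fSL g ≠ 0 := fF_ne_zero _ _ _ _ (det_SL g)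

theorem fSL_neg (g : SL(2, ℤ)) : fSL (-g) = fSL g := by
  unfold fSL fF
  simp only [Matrix.SpecialLinearGroup.coe_neg, Matrix.neg_apply]
  ring

theorem sSL_neg (g : SL(2, ℤ)) : sSL (-g) = sSL g := by
  unfold sSL; rw [fSL_neg]

/-- the bound for the entries -/
def boundSL (γ : SL(2, ℤ)) : ℤ := 2 * (tauF (γ 0 0) (γ 0 1) (γ 1 0) (γ 1 1) ^ 2 + 7)

theorem entries_le_of_sSL_ne (g γ : SL(2, ℤ)) (h : sSL (g * γ) ≠ sSL g) :
    ∀ i j : Fin 2, |g i j| ≤ boundSL γ := by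
  have hopp : fSL g * fSL (g * γ) < 0 := by
    have h1 := fSL_ne_zero g
    have h2 := fSL_ne_zero (g * γ)
    unfold sSL at h
    rcases lt_or_gt_of_ne h1 with h1 | h1 <;> rcases lt_or_gt_of_ne h2 with h2 | h2
    · exfalso; apply h; simp [not_lt.mpr h1.le, not_lt.mpr h2.le]
    · exact mul_neg_of_neg_of_pos h1 h2
    · exact mul_neg_of_pos_of_neg h1 h2
    · exfalso; apply h; simp [h1, h2]
  rw [fSL_mul] at hopp
  have := entries_bounded (g 0 0) (g 0 1) (g 1 0) (g 1 1) (γ 0 0) (γ 0 1) (γ 1 0) (γ 1 1)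
    (det_SL g) (det_SL γ) hopp
  intro i j
  fin_cases i <;> fin_cases j
  · exact this.1
  · exact this.2.1
  · exact this.2.2.1
  · exact this.2.2.2

theorem finite_entries_le (B : ℤ) : {g : SL(2, ℤ) | ∀ i j : Fin 2, |g i j| ≤ B}.Finite := by
  have hfin : (Set.pi Set.univ fun _ : Fin 2 => Set.pi Set.univ fun _ : Fin 2 =>
      Set.Icc (-B) B).Finite :=
    Set.Finite.pi fun _ => Set.Finite.pi fun _ => Set.finite_Icc _ _
  have hinj : Function.Injective (fun g : SL(2, ℤ) => (g : Matrix (Fin 2) (Fin 2) ℤ)) :=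
    Subtype.val_injective
  refine (hfin.preimage hinj.injOn).subset ?_
  intro g hg
  show (g : Matrix (Fin 2) (Fin 2) ℤ) ∈ Set.pi Set.univ fun _ : Fin 2 =>
    Set.pi Set.univ fun _ : Fin 2 => Set.Icc (-B) B
  intro i _ j _
  exact abs_le.mp (hg i j)

section Gamma0

variable (p : ℕ)

/-- `s` restricted to `Γ₀(p)` -/
def sGamma0 (g : Gamma0 p) : ℤ := sSL (g : SL(2, ℤ))

theorem almostInv_sGamma0 : AlmostInv (sGamma0 p) := by
  intro γ
  have hfin := finite_entries_le (boundSL (γ : SL(2, ℤ)))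
  have hinj : Function.Injective (fun g : Gamma0 p => (g : SL(2, ℤ))) := Subtype.val_injective
  refine (hfin.preimage hinj.injOn).subset ?_
  intro g hg
  simp only [mem_support, diffFun, sGamma0, ne_eq, sub_eq_zero] at hg
  show ∀ i j : Fin 2, |(g : SL(2, ℤ)) i j| ≤ boundSL (γ : SL(2, ℤ))
  exact entries_le_of_sSL_ne _ _ hg

theorem neg_one_mem_Gamma0 : (-1 : SL(2, ℤ)) ∈ Gamma0 p := by
  rw [Gamma0_mem]
  simp

theorem T_mem_Gamma0 : (T : SL(2, ℤ)) ∈ Gamma0 p := by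
  rw [Gamma0_mem]
  simp [coe_T]

/-- `-1` as an element of `Γ₀(p)` -/
def negOneGamma0 : Gamma0 p := ⟨-1, neg_one_mem_Gamma0 p⟩

/-- `T` as an element of `Γ₀(p)` -/
def TGamma0 : Gamma0 p := ⟨T, T_mem_Gamma0 p⟩

theorem coe_negOne_mul (g : Gamma0 p) :
    ((negOneGamma0 p * g : Gamma0 p) : SL(2, ℤ)) = -(g : SL(2, ℤ)) := by
  simp [negOneGamma0]

theorem sGamma0_negOne_mul (g : Gamma0 p) : sGamma0 p (negOneGamma0 p * g) = sGamma0 p g := by
  unfold sGamma0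
  rw [coe_negOne_mul, sSL_neg]

/-- the half system: lower left entry positive, or zero and upper left positive -/
def halfSys (g : Gamma0 p) : Prop :=
  0 < (g : SL(2, ℤ)) 1 0 ∨ ((g : SL(2, ℤ)) 1 0 = 0 ∧ 0 < (g : SL(2, ℤ)) 0 0)

theorem halfSys_negOne_mul (g : Gamma0 p) : halfSys p (negOneGamma0 p * g) ↔ ¬ halfSys p g := by
  unfold halfSys
  rw [coe_negOne_mul]
  simp only [Matrix.SpecialLinearGroup.coe_neg, Matrix.neg_apply]
  have hdet := det_SL (g : SL(2, ℤ))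
  have ha : (g : SL(2, ℤ)) 1 0 = 0 → (g : SL(2, ℤ)) 0 0 ≠ 0 := by
    intro hc h0
    rw [hc, h0] at hdet
    simp at hdet
  generalize (g : SL(2, ℤ)) 1 0 = c at ha ⊢
  generalize (g : SL(2, ℤ)) 0 0 = a at ha ⊢
  constructor
  · rintro (h | ⟨h1, h2⟩) <;> omega
  · intro h
    by_cases hc : c = 0
    · have := ha hc; omega
    · omega

/-- the crossing homomorphism `Γ₀(p) → ℤ` -/
noncomputable def crossHomGamma0 : Gamma0 p →* Multiplicative ℤ :=
  halfCrossHom (almostInv_sGamma0 p) (negOneGamma0 p) (sGamma0_negOne_mul p) (halfSys p)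
    (halfSys_negOne_mul p)

theorem fSL_mul_T (g : SL(2, ℤ)) :
    fSL (g * T) = fF (g 0 0) (g 0 0 + g 0 1) (g 1 0) (g 1 0 + g 1 1) := by
  rw [fSL_mul]
  simp [coe_T]

theorem eq_one_of_entries (g : Gamma0 p) (ha : (g : SL(2, ℤ)) 0 0 = 1)
    (hb : (g : SL(2, ℤ)) 0 1 = 0) (hc : (g : SL(2, ℤ)) 1 0 = 0) (hd : (g : SL(2, ℤ)) 1 1 = 1) :
    g = 1 := by
  apply Subtype.ext
  ext i j
  fin_cases i <;> fin_cases j <;> simp [ha, hb, hc, hd]

theorem eq_negOne_of_entries (g : Gamma0 p) (ha : (g : SL(2, ℤ)) 0 0 = -1)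
    (hb : (g : SL(2, ℤ)) 0 1 = 0) (hc : (g : SL(2, ℤ)) 1 0 = 0) (hd : (g : SL(2, ℤ)) 1 1 = -1) :
    g = negOneGamma0 p := by
  apply Subtype.ext
  ext i j
  fin_cases i <;> fin_cases j <;> simp [negOneGamma0, ha, hb, hc, hd]

theorem one_ne_negOneGamma0 : (1 : Gamma0 p) ≠ negOneGamma0 p := by
  intro h
  have h1 := congrArg (fun g : Gamma0 p => (g : SL(2, ℤ)) 0 0) h
  simp [negOneGamma0] at h1

theorem diffFun_T (hp : 2 ≤ p) (g : Gamma0 p) :
    diffFun (sGamma0 p) (TGamma0 p) g = if g = 1 ∨ g = negOneGamma0 p then 1 else 0 := by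
  have hdet := det_SL (g : SL(2, ℤ))
  have hmem : ((p : ℕ) : ℤ) ∣ (g : SL(2, ℤ)) 1 0 := by
    have := Gamma0_mem.mp g.2
    exact (ZMod.intCast_zmod_eq_zero_iff_dvd _ _).mp this
  have hfT : fSL ((g : SL(2, ℤ)) * T) = fF ((g : SL(2, ℤ)) 0 0)
      ((g : SL(2, ℤ)) 0 0 + (g : SL(2, ℤ)) 0 1) ((g : SL(2, ℤ)) 1 0)
      ((g : SL(2, ℤ)) 1 0 + (g : SL(2, ℤ)) 1 1) := fSL_mul_T _
  have hD : diffFun (sGamma0 p) (TGamma0 p) g
      = (if 0 < fSL ((g : SL(2, ℤ)) * T) then (1 : ℤ) else 0)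
        - (if 0 < fSL (g : SL(2, ℤ)) then (1 : ℤ) else 0) := rfl
  have hf : fSL (g : SL(2, ℤ)) = fF ((g : SL(2, ℤ)) 0 0) ((g : SL(2, ℤ)) 0 1)
      ((g : SL(2, ℤ)) 1 0) ((g : SL(2, ℤ)) 1 1) := rfl
  rw [hD, hfT, hf]
  have h1 : g = 1 → (g : SL(2, ℤ)) 0 0 = 1 ∧ (g : SL(2, ℤ)) 0 1 = 0 ∧
      (g : SL(2, ℤ)) 1 0 = 0 ∧ (g : SL(2, ℤ)) 1 1 = 1 := by
    rintro rfl; simp
  have h2 : g = negOneGamma0 p → (g : SL(2, ℤ)) 0 0 = -1 ∧ (g : SL(2, ℤ)) 0 1 = 0 ∧
      (g : SL(2, ℤ)) 1 0 = 0 ∧ (g : SL(2, ℤ)) 1 1 = -1 := by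
    rintro rfl; simp [negOneGamma0]
  have h1' := eq_one_of_entries p g
  have h2' := eq_negOne_of_entries p g
  generalize (g : SL(2, ℤ)) 0 0 = a at *
  generalize (g : SL(2, ℤ)) 0 1 = b at *
  generalize (g : SL(2, ℤ)) 1 0 = c at *
  generalize (g : SL(2, ℤ)) 1 1 = d at *
  by_cases hac : a * c = 0
  · -- then `c = 0`
    have hc : c = 0 := by
      rcases mul_eq_zero.mp hac with ha | hc
      · exfalso
        rw [ha] at hdet
        have hc1 : c ∣ 1 := ⟨-b, by linarith⟩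
        have hp1 : (p : ℤ) ∣ 1 := dvd_trans hmem hc1
        have : (p : ℤ) ≤ 1 := Int.le_of_dvd one_pos hp1
        omega
      · exact hc
    subst hc
    have had : a * d = 1 := by linarith
    have hcases : (a = 1 ∧ d = 1) ∨ (a = -1 ∧ d = -1) := by
      rcases Int.eq_one_or_neg_one_of_mul_eq_one' had with h | h
      · left; exact h
      · right; exact h
    by_cases hb : b = 0
    · subst hb
      have hg : g = 1 ∨ g = negOneGamma0 p := by
        rcases hcases with ⟨ha, hd⟩ | ⟨ha, hd⟩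
        · left; exact h1' ha rfl rfl hd
        · right; exact h2' ha rfl rfl hd
      rw [if_pos hg]
      have e1 : fF a (a + 0) 0 (0 + d) = 1 := by unfold fF; linarith
      have e2 : fF a 0 0 d = -1 := by unfold fF; linarith
      rw [e1, e2]; simp
    · have hg : ¬ (g = 1 ∨ g = negOneGamma0 p) := by
        rintro (h | h)
        · exact hb (h1 h).2.1
        · exact hb (h2 h).2.1
      rw [if_neg hg]
      have e1 : fF a (a + b) 0 (0 + d) = 2 * (b * d) + 1 := by unfold fF; linarith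
      have e2 : fF a b 0 d = 2 * (b * d) - 1 := by unfold fF; linarith
      rw [e1, e2]
      have hbd : b * d ≠ 0 := by
        rcases hcases with ⟨_, hd⟩ | ⟨_, hd⟩ <;> subst hd <;> simpa using hb
      by_cases hpos : 0 < b * d
      · rw [if_pos (by omega), if_pos (by omega)]; simp
      · rw [if_neg (by omega), if_neg (by omega)]; simp
  · have hg : ¬ (g = 1 ∨ g = negOneGamma0 p) := by
      rintro (h | h)
      · apply hac; rw [(h1 h).2.2.1]; simp
      · apply hac; rw [(h2 h).2.2.1]; simp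
    rw [if_neg hg]
    have hprod := fF_mul_T_pos a b c d hdet hac
    have hne := fF_ne_zero a b c d hdet
    by_cases hpos : 0 < fF a b c d
    · have : 0 < fF a (a + b) c (c + d) := by
        by_contra h
        have : fF a (a + b) c (c + d) ≤ 0 := not_lt.mp h
        nlinarith
      rw [if_pos this, if_pos hpos]; simp
    · have hneg : fF a b c d < 0 := by omega
      have : ¬ 0 < fF a (a + b) c (c + d) := by
        intro h
        nlinarith
      rw [if_neg this, if_neg hpos]; simp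

theorem crossCount_T (hp : 2 ≤ p) : crossCount (sGamma0 p) (TGamma0 p) = 2 := by
  classical
  unfold crossCount
  have hfun : (fun g => diffFun (sGamma0 p) (TGamma0 p) g)
      = fun g => if g = 1 ∨ g = negOneGamma0 p then (1 : ℤ) else 0 :=
    funext (diffFun_T p hp)
  rw [hfun]
  rw [finsum_eq_sum_of_support_subset (s := ({1, negOneGamma0 p} : Finset (Gamma0 p)))]
  · rw [Finset.sum_pair (one_ne_negOneGamma0 p)]
    simp
  · intro g hg
    simp only [mem_support, ne_eq, ite_eq_right_iff, one_ne_zero, imp_false, not_not] at hg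
    simpa using hg

/-- the crossing homomorphism has value `1` at `T` -/
theorem crossHomGamma0_T (hp : 2 ≤ p) :
    crossHomGamma0 p (TGamma0 p) = Multiplicative.ofAdd 1 := by
  unfold crossHomGamma0
  rw [halfCrossHom_apply, crossCount_T p hp]
  rfl

/-- **Piece (B)**: there is a homomorphism `Γ₀(p) → ℤ` with value `1` at `T`. -/
theorem exists_hom_Gamma0_T_eq_one (hp : 2 ≤ p) :
    ∃ h : Gamma0 p →* Multiplicative ℤ,
      h ⟨T, T_mem_Gamma0 p⟩ = Multiplicative.ofAdd 1 :=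
  ⟨crossHomGamma0 p, crossHomGamma0_T p hp⟩

/-- additive form of piece (B): an integer valued function on `Γ₀(p)`, additive, `h T = 1`. -/
theorem exists_fun_Gamma0_T_eq_one (hp : 2 ≤ p) :
    ∃ h : Gamma0 p → ℤ, (∀ γ₁ γ₂, h (γ₁ * γ₂) = h γ₁ + h γ₂) ∧ h ⟨T, T_mem_Gamma0 p⟩ = 1 := by
  refine ⟨fun γ => Multiplicative.toAdd (crossHomGamma0 p γ), fun γ₁ γ₂ => ?_, ?_⟩
  · simp [map_mul]
  · show Multiplicative.toAdd (crossHomGamma0 p (TGamma0 p)) = 1
    rw [crossHomGamma0_T p hp]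
    rfl

end Gamma0

end Fermat.Agent.S16.Crossing
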