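import Fermat.Agent.S16.LB.Defs
import Fermat.Agent.S16.LB.DR.Log
import Fermat.Agent.S28.DeltaQuotMF

/-!
# S16 lower bound, piece (A1): the Dedekind–Rademacher homomorphism
Owner: helper97 (see `NOTES/S16-LB-blueprint.md`).

* `drLog p` : the explicit holomorphic logarithm
  `L₀(z) = 2πi(1-p) z + log E(q) - log E(q^p)` of `u₀ = Δ(z)/Δ(pz)`, where
  `E(q) = ∏ (1 - q^n)^24` and `log E` is the holomorphic logarithm on the unit disc
  (`DR/Log.lean`).
* `nonempty_drData` : `exp (L₀(γz) - L₀(z)) = 1`, so `(L₀(γz) - L₀(z)) / 2πi` is a continuous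
  integer valued function of `z`, hence constant `=: φ γ`; `φ` is additive.
* `DRData.φ_gT` : any two logarithms differ by a constant, and `L₀(z+1) - L₀(z) = 2πi(1-p)`.
-/

set_option autoImplicit false

namespace Fermat.Agent.S16.LB

open CongruenceSubgroup Complex Filter
open UpperHalfPlane hiding I
open ModularForm
open scoped MatrixGroups Real Topology Manifold

/-- The `q`-parameter at a point of the upper half plane. -/
local notation "𝕢₁" => Function.Periodic.qParam 1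

lemma drq_norm_lt_one (z : ℍ) : ‖𝕢₁ (z : ℂ)‖ < 1 :=
  Function.Periodic.norm_qParam_lt_one one_pos z.2

lemma drq_ne_zero (w : ℂ) : 𝕢₁ w ≠ 0 := by
  simp [Function.Periodic.qParam]

/-- The explicit logarithm of `u₀(z) = Δ(z) / Δ(p z)`. -/
noncomputable def drLog (p : ℕ) (z : ℍ) : ℂ :=
  2 * π * I * (1 - (p : ℂ)) * (z : ℂ) + logEuler (𝕢₁ (z : ℂ))
    - logEuler (𝕢₁ ((heckeDiagMatrix p • z : ℍ) : ℂ))

theorem exp_drLog (p : ℕ) [NeZero p] (z : ℍ) : cexp (drLog p z) = drUnit p z := by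
  have hp : p ≠ 0 := NeZero.ne p
  unfold drLog drUnit
  rw [Fermat.Agent.S28.wp2_discriminant_eq_qParam_mul_eulerProd24 z,
    Fermat.Agent.S28.wp2_discriminant_eq_qParam_mul_eulerProd24 (heckeDiagMatrix p • z),
    Complex.exp_sub, Complex.exp_add, exp_logEuler (drq_norm_lt_one z),
    exp_logEuler (drq_norm_lt_one (heckeDiagMatrix p • z))]
  have hE : Fermat.Agent.S28.wp2EulerProd24 (𝕢₁ ((heckeDiagMatrix p • z : ℍ) : ℂ)) ≠ 0 :=
    Fermat.Agent.S28.wp2_eulerProd24_ne_zero (drq_norm_lt_one _)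
  have hq : 𝕢₁ ((heckeDiagMatrix p • z : ℍ) : ℂ) ≠ 0 := drq_ne_zero _
  have hqq : cexp (2 * π * I * (1 - (p : ℂ)) * (z : ℂ)) * 𝕢₁ ((heckeDiagMatrix p • z : ℍ) : ℂ)
      = 𝕢₁ (z : ℂ) := by
    rw [coe_heckeDiagMatrix_smul hp]
    simp only [Function.Periodic.qParam]
    rw [← Complex.exp_add]
    congr 1
    push_cast
    ring
  rw [div_eq_div_iff hE (mul_ne_zero hq hE), ← hqq]
  ring

/-- `drLog` on the complex half plane. -/
lemma drLog_ofComplex (p : ℕ) [NeZero p] {w : ℂ} (hw : 0 < w.im) :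
    drLog p (ofComplex w) =
      2 * π * I * (1 - (p : ℂ)) * w + logEuler (𝕢₁ w) - logEuler (𝕢₁ ((p : ℂ) * w)) := by
  unfold drLog
  rw [coe_heckeDiagMatrix_smul (NeZero.ne p), ofComplex_apply_of_im_pos hw]

theorem mdifferentiable_drLog (p : ℕ) [NeZero p] : MDifferentiable 𝓘(ℂ) 𝓘(ℂ) (drLog p) := by
  rw [UpperHalfPlane.mdifferentiable_iff]
  intro w hw
  have hw' : 0 < w.im := hw
  have hpw : 0 < ((p : ℂ) * w).im := by
    rw [Complex.mul_im]
    simp only [Complex.natCast_re, Complex.natCast_im, zero_mul, add_zero]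
    exact mul_pos (by exact_mod_cast Nat.pos_of_ne_zero (NeZero.ne p)) hw'
  have hball : ∀ v : ℂ, 0 < v.im → 𝕢₁ v ∈ Metric.ball (0 : ℂ) 1 := fun v hv => by
    simpa using Function.Periodic.norm_qParam_lt_one one_pos hv
  have h1 : DifferentiableAt ℂ (fun v : ℂ => logEuler (𝕢₁ v)) w :=
    (differentiableOn_logEuler.differentiableAt
      (Metric.isOpen_ball.mem_nhds (hball w hw'))).comp w
      (Function.Periodic.differentiable_qParam w)
  have h2 : DifferentiableAt ℂ (fun v : ℂ => logEuler (𝕢₁ ((p : ℂ) * v))) w := by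
    have hin : DifferentiableAt ℂ (fun v : ℂ => 𝕢₁ ((p : ℂ) * v)) w :=
      (Function.Periodic.differentiable_qParam ((p : ℂ) * w)).comp w
        ((differentiableAt_id).const_mul (p : ℂ))
    exact (differentiableOn_logEuler.differentiableAt
      (Metric.isOpen_ball.mem_nhds (hball _ hpw))).comp w hin
  have h3 : DifferentiableAt ℂ
      (fun v : ℂ => 2 * π * I * (1 - (p : ℂ)) * v + logEuler (𝕢₁ v)
        - logEuler (𝕢₁ ((p : ℂ) * v))) w :=
    (((differentiableAt_id).const_mul _).add h1).sub h2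
  refine h3.differentiableWithinAt.congr (fun v hv => ?_) ?_
  · simp only [Function.comp]
    exact drLog_ofComplex p hv
  · simp only [Function.comp]
    exact drLog_ofComplex p hw'

theorem continuous_drLog (p : ℕ) [NeZero p] : Continuous (drLog p) :=
  (mdifferentiable_drLog p).continuous

/-- `u₀` is invariant under `Γ₀(p)`. -/
theorem drUnit_smul (p : ℕ) [NeZero p] (γ : Gamma0 p) (z : ℍ) :
    drUnit p ((γ : SL(2, ℤ)) • z) = drUnit p z := by
  have hγ : (((γ : SL(2, ℤ)) : SL(2, ℤ)) : GL (Fin 2) ℝ) ∈ S23.G0 p :=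
    ⟨(γ : SL(2, ℤ)), γ.2, rfl⟩
  have h1 := Fermat.Agent.S28.dDelta_smul_of_mem_G0 (N := p) (δ := p) dvd_rfl hγ z
  have h2 := Fermat.Agent.S28.dDelta_smul_of_mem_G0 (N := p) (δ := 1) (one_dvd p) hγ z
  have hone : ∀ w : ℍ, Fermat.Agent.S28.dDelta 1 w = discriminant w := fun w => by
    unfold Fermat.Agent.S28.dDelta
    congr 1
    apply UpperHalfPlane.ext
    rw [coe_heckeDiagMatrix_smul one_ne_zero]
    simp
  rw [hone, hone] at h2
  unfold Fermat.Agent.S28.dDelta at h1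
  unfold drUnit
  rw [h1, h2]
  have hden : denom (γ : SL(2, ℤ)) z ^ (12 : ℤ) ≠ 0 := zpow_ne_zero _ (denom_ne_zero _ _)
  rw [mul_div_mul_left _ _ hden]

/-- The periods of the explicit logarithm are integer multiples of `2πi`. -/
theorem exists_drLog_period (p : ℕ) [NeZero p] (γ : Gamma0 p) :
    ∃ k : ℤ, ∀ z : ℍ, drLog p ((γ : SL(2, ℤ)) • z) - drLog p z = 2 * π * I * k := by
  refine exists_int_of_exp_eq_one (X := ℍ)
    (F := fun z => drLog p ((γ : SL(2, ℤ)) • z) - drLog p z) ?_ ?_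
  · have hsm : Continuous (fun z : ℍ => ((γ : SL(2, ℤ)) • z : ℍ)) := by
      change Continuous (fun z : ℍ => (Matrix.SpecialLinearGroup.mapGL ℝ (γ : SL(2, ℤ))) • z)
      exact continuous_const_smul _
    exact ((continuous_drLog p).comp hsm).sub (continuous_drLog p)
  · intro z
    rw [Complex.exp_sub, exp_drLog, exp_drLog, drUnit_smul, div_self]
    rw [← exp_drLog]
    exact Complex.exp_ne_zero _

/-- The period of the explicit logarithm at `γ`. -/
noncomputable def drPeriod (p : ℕ) [NeZero p] (γ : Gamma0 p) : ℤ :=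
  (exists_drLog_period p γ).choose

theorem drLog_smul_sub (p : ℕ) [NeZero p] (γ : Gamma0 p) (z : ℍ) :
    drLog p ((γ : SL(2, ℤ)) • z) - drLog p z = 2 * π * I * (drPeriod p γ : ℂ) :=
  (exists_drLog_period p γ).choose_spec z

lemma two_pi_I_mul_int_injective {a b : ℤ} (h : 2 * π * I * (a : ℂ) = 2 * π * I * (b : ℂ)) :
    a = b := by
  have hpi : (2 * π * I : ℂ) ≠ 0 := Complex.two_pi_I_ne_zero
  exact_mod_cast mul_left_cancel₀ hpi h

theorem drPeriod_mul (p : ℕ) [NeZero p] (γ γ' : Gamma0 p) :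
    drPeriod p (γ * γ') = drPeriod p γ + drPeriod p γ' := by
  apply two_pi_I_mul_int_injective
  have h1 := drLog_smul_sub p (γ * γ') UpperHalfPlane.I
  have h2 := drLog_smul_sub p γ (((γ' : Gamma0 p) : SL(2, ℤ)) • UpperHalfPlane.I)
  have h3 := drLog_smul_sub p γ' UpperHalfPlane.I
  have hmul : (((γ * γ' : Gamma0 p) : SL(2, ℤ))) • UpperHalfPlane.I
      = ((γ : Gamma0 p) : SL(2, ℤ)) • ((γ' : Gamma0 p) : SL(2, ℤ)) • UpperHalfPlane.I := by
    rw [Subgroup.coe_mul, mul_smul]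
  rw [hmul] at h1
  push_cast
  rw [← h1, mul_add, ← h2, ← h3]
  ring

/-- The Dedekind–Rademacher homomorphism attached to the explicit logarithm. -/
noncomputable def drHom (p : ℕ) [NeZero p] : Additive (Gamma0 p) →+ ℤ :=
  AddMonoidHom.mk' (fun γ => drPeriod p (Additive.toMul γ)) fun a b => by
    simpa using drPeriod_mul p (Additive.toMul a) (Additive.toMul b)

/-- The explicit Dedekind–Rademacher data. -/
noncomputable def drDataExplicit (p : ℕ) [NeZero p] : DRData p where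
  L := drLog p
  φ := drHom p
  mdiff := mdifferentiable_drLog p
  exp_L := exp_drLog p
  L_smul := fun γ z => by
    rw [drLog_smul_sub]
    rfl

theorem nonempty_drData (p : ℕ) [Fact p.Prime] : Nonempty (DRData p) := by
  have : NeZero p := ⟨(Fact.out : p.Prime).ne_zero⟩
  exact ⟨drDataExplicit p⟩

/-- Any two logarithms of `u₀` differ by a constant. -/
theorem DRData.L_sub_const {p : ℕ} (D D' : DRData p) (z w : ℍ) :
    D.L z - D'.L z = D.L w - D'.L w := by
  refine eq_of_exp_eq_exp (X := ℍ) (F := fun z => D.L z - D'.L z)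
    (D.mdiff.continuous.sub D'.mdiff.continuous) (fun x y => ?_) z w
  rw [Complex.exp_sub, Complex.exp_sub, D.exp_L, D'.exp_L, D.exp_L, D'.exp_L]
  have hx : drUnit p x ≠ 0 := by rw [← D.exp_L]; exact Complex.exp_ne_zero _
  have hy : drUnit p y ≠ 0 := by rw [← D.exp_L]; exact Complex.exp_ne_zero _
  rw [div_self hx, div_self hy]

/-- The period homomorphism does not depend on the choice of the logarithm. -/
theorem DRData.φ_eq {p : ℕ} (D D' : DRData p) (γ : Gamma0 p) :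
    D.φ (Additive.ofMul γ) = D'.φ (Additive.ofMul γ) := by
  apply two_pi_I_mul_int_injective
  rw [← D.L_smul γ UpperHalfPlane.I, ← D'.L_smul γ UpperHalfPlane.I]
  have := D.L_sub_const D' ((γ : SL(2, ℤ)) • UpperHalfPlane.I) UpperHalfPlane.I
  linear_combination this

/-- The explicit logarithm satisfies `L₀(z + 1) - L₀(z) = 2πi (1 - p)`. -/
theorem drPeriod_gT (p : ℕ) [NeZero p] : drPeriod p (gT p) = 1 - (p : ℤ) := by
  apply two_pi_I_mul_int_injective
  rw [← drLog_smul_sub p (gT p) UpperHalfPlane.I]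
  have hT : (((gT p : Gamma0 p) : SL(2, ℤ)) • UpperHalfPlane.I : ℍ)
      = (1 : ℝ) +ᵥ UpperHalfPlane.I := by
    rw [coe_gT, UpperHalfPlane.modular_T_smul]
  rw [hT]
  unfold drLog
  have hp : p ≠ 0 := NeZero.ne p
  rw [coe_heckeDiagMatrix_smul hp, coe_heckeDiagMatrix_smul hp, UpperHalfPlane.coe_vadd]
  have hq1 : 𝕢₁ (((1 : ℝ) : ℂ) + (UpperHalfPlane.I : ℂ)) = 𝕢₁ (UpperHalfPlane.I : ℂ) := by
    simp only [Function.Periodic.qParam]
    have : 2 * π * I * (((1 : ℝ) : ℂ) + (UpperHalfPlane.I : ℂ)) / ((1 : ℝ) : ℂ)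
        = 2 * π * I * (UpperHalfPlane.I : ℂ) / ((1 : ℝ) : ℂ) + 2 * π * I := by
      push_cast; ring
    rw [this, Complex.exp_add, Complex.exp_two_pi_mul_I, mul_one]
  have hq2 : 𝕢₁ ((p : ℂ) * (((1 : ℝ) : ℂ) + (UpperHalfPlane.I : ℂ)))
      = 𝕢₁ ((p : ℂ) * (UpperHalfPlane.I : ℂ)) := by
    simp only [Function.Periodic.qParam]
    have : 2 * π * I * ((p : ℂ) * (((1 : ℝ) : ℂ) + (UpperHalfPlane.I : ℂ))) / ((1 : ℝ) : ℂ)
        = 2 * π * I * ((p : ℂ) * (UpperHalfPlane.I : ℂ)) / ((1 : ℝ) : ℂ)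
          + (p : ℕ) * (2 * π * I) := by
      push_cast; ring
    rw [this, Complex.exp_add, Complex.exp_nat_mul_two_pi_mul_I, mul_one]
  rw [hq1, hq2]
  push_cast
  ring

theorem DRData.φ_gT {p : ℕ} [Fact p.Prime] (D : DRData p) :
    D.φ (Additive.ofMul (gT p)) = 1 - (p : ℤ) := by
  have : NeZero p := ⟨(Fact.out : p.Prime).ne_zero⟩
  rw [D.φ_eq (drDataExplicit p) (gT p)]
  exact drPeriod_gT p

end Fermat.Agent.S16.LB
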