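import Fermat.Agent.S16.LB.Defs
import Fermat.Agent.S16.LB.Ogg.MainH

/-!
# S16 lower bound, piece (D): Ogg's bound `m ∣ 12` (rationality trick)
Owner: helper23.  Uses the toolkit `CuspZeroData` as a hypothesis.

Input: an `m`-th root `H` of the modular unit `u₀ = Δ(z)/Δ(pz)`, holomorphic and
`Γ₀(p)`-invariant.  (In `Main.lean`, `H = exp (L / m)` when `m` divides all values of `φ`.)

Route (files `Fermat/Agent/S16/LB/Ogg/*.lean`): `F := H · Δ(p·) ∈ M₁₂(Γ₀(p))`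
(`F^m = Δ · Δ(p·)^(m-1)` is bounded at all cusps, `FormH.lean`).  With `A = qExp F`, `B = Z F`:
`A^m = δ (δ∘X^p)^(m-1)`, `B^m = (δ∘X^p) (p⁻¹² δ)^(m-1)` (from `Z_mul`, `Z_levelOne`, `Z_swap`,
`ZRel.lean`), so `A ∈ ζ ℚ⟦X⟧`, `B ∈ c ℚ⟦X⟧`, `ζ^m = 1`, `c^m = p^(-12(m-1))` (`Root.lean`).  Trace
(`esymm_conj`, `i = 1`): `qExp F + p U_p (Z F) ∈ M₁₂(SL₂ℤ)` has its first two coefficients in
`c ℚ`, hence all of them, hence `ζ ∈ c ℚ` and `p^(12(m-1))` is an `m`-th power in `ℚ`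
(`MainH.lean`).
-/

set_option autoImplicit false

namespace Fermat.Agent.S16.LB

open CongruenceSubgroup UpperHalfPlane
open scoped MatrixGroups Manifold

/-- **Ogg.**  If the modular unit `Δ(z)/Δ(pz)` has a holomorphic `Γ₀(p)`-invariant `m`-th root,
then `m ∣ 12`. -/
theorem dvd_twelve_of_root {p : ℕ} [Fact p.Prime]
    (T : Fermat.Agent.S16.CuspZeroData p (Fact.out : p.Prime).ne_zero)
    (m : ℕ) (hm : 0 < m) (H : ℍ → ℂ) (hH : MDifferentiable 𝓘(ℂ) 𝓘(ℂ) H)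
    (hinv : ∀ (γ : Gamma0 p) (z : ℍ), H ((γ : SL(2, ℤ)) • z) = H z)
    (hpow : ∀ z : ℍ, H z ^ m = drUnit p z) :
    m ∣ 12 := by
  rcases Nat.lt_or_ge m 2 with h1 | h2
  · have : m = 1 := by omega
    rw [this]
    exact one_dvd _
  · obtain ⟨F, hF⟩ := Ogg.exists_form_of_root T m hm H hH hinv hpow
    refine Ogg.dvd_twelve_of_form T m h2 F ?_
    rw [hF]
    exact Ogg.root_pow_identity hm hpow

end Fermat.Agent.S16.LB
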