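import Fermat.Agent.S16.LB.Defs
import Fermat.Agent.S16.LB.Residue.Verlagerung
import Fermat.Agent.S16.LB.Residue.Parabolic

/-!
# S16 lower bound, piece (A5): the residue relation

Owner: helper44.  A homomorphism `X : Γ₀(p) → ℂ` with `X(T) = 0` is parabolic.

* `Residue.hom_tG_add_vG` : every homomorphism `X` from `Γ₀(p)` to a torsion-free abelian group
  satisfies `X(T) + X(S⁻¹ T^p S) = 0` (transfer to `SL(2, ℤ)`, whose abelianisation is torsion).
* `hom_gT_eq_gU` : `X(T) = X(U)`, `U = (1 0; p 1)`.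
* `mem_parabolicHoms_of_gT` : `X(T) = 0` implies that `X` kills every element of trace `±2`.
-/

set_option autoImplicit false

namespace Fermat.Agent.S16.LB

open CongruenceSubgroup ModularCurve.Period Matrix.SpecialLinearGroup ModularGroup
open scoped MatrixGroups

namespace Residue

variable {p : ℕ}

/-- the multiplicative version of an additive character -/
def toMulHom {A : Type*} [AddCommGroup A] (X : Additive (Gamma0 p) →+ A) :
    Gamma0 p →* Multiplicative A where
  toFun γ := Multiplicative.ofAdd (X (Additive.ofMul γ))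
  map_one' := by
    show Multiplicative.ofAdd (X 0) = 1
    rw [map_zero]; rfl
  map_mul' a b := by
    show Multiplicative.ofAdd (X (Additive.ofMul a + Additive.ofMul b)) = _
    rw [map_add]; rfl

theorem toMulHom_apply {A : Type*} [AddCommGroup A] (X : Additive (Gamma0 p) →+ A)
    (γ : Gamma0 p) : toMulHom X γ = Multiplicative.ofAdd (X (Additive.ofMul γ)) := rfl

/-- **Residue relation.** -/
theorem hom_tG_add_vG [Fact p.Prime] {A : Type*} [AddCommGroup A] [IsAddTorsionFree A]
    (X : Additive (Gamma0 p) →+ A) :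
    X (Additive.ofMul (tG p)) + X (Additive.ofMul (vG p)) = 0 := by
  have h := hom_T_mul_hom_V_pow (toMulHom X)
  rw [toMulHom_apply, toMulHom_apply, ← ofAdd_add, ← ofAdd_nsmul] at h
  have h2 : (12 : ℕ) • (X (Additive.ofMul (tG p)) + X (Additive.ofMul (vG p))) = 0 :=
    Multiplicative.ofAdd.injective h
  exact (nsmul_eq_zero_iff_right (by norm_num)).mp h2

theorem vG_eq_gU_inv (p : ℕ) : vG p = (gU p)⁻¹ := by
  apply Subtype.ext
  apply Subtype.ext
  show ((vSL p : SL(2, ℤ)) : Matrix (Fin 2) (Fin 2) ℤ) = _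
  rw [coe_vSL]
  simp only [Subgroup.coe_inv, coe_inv, coe_gU, Matrix.adjugate_fin_two_of]
  simp

theorem tG_eq_gT (p : ℕ) : tG p = gT p := rfl

/-- `-1` as an element of `Γ₀(p)` -/
def negOne (p : ℕ) : Gamma0 p := ⟨-1, by rw [Gamma0_mem]; simp⟩

theorem hom_negOne {A : Type*} [AddCommGroup A] [IsAddTorsionFree A]
    (X : Additive (Gamma0 p) →+ A) : X (Additive.ofMul (negOne p)) = 0 := by
  have h1 : negOne p * negOne p = 1 := by
    apply Subtype.ext
    simp [negOne]
  have h2 : X (Additive.ofMul (negOne p * negOne p)) = 0 := by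
    rw [h1]; exact map_zero X
  have h3 : (2 : ℕ) • X (Additive.ofMul (negOne p)) = 0 := by
    rw [two_nsmul, ← map_add]; exact h2
  exact (nsmul_eq_zero_iff_right (by norm_num)).mp h3

/-- an additive character killing `T` kills all elements of trace `2` -/
theorem hom_eq_zero_of_trace_two [Fact p.Prime] {A : Type*} [AddCommGroup A]
    [IsAddTorsionFree A] (X : Additive (Gamma0 p) →+ A) (hT : X (Additive.ofMul (tG p)) = 0)
    (γ : Gamma0 p) (hγ : ((γ : SL(2, ℤ)) : Matrix (Fin 2) (Fin 2) ℤ).trace = 2) :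
    X (Additive.ofMul γ) = 0 := by
  have hV : X (Additive.ofMul (vG p)) = 0 := by
    have := hom_tG_add_vG X
    rw [hT, zero_add] at this
    exact this
  obtain ⟨x, k, hxk⟩ := exists_conj_of_trace_two (γ : SL(2, ℤ)) hγ
  have hmem : x⁻¹ * T ^ k * x ∈ Gamma0 p := hxk ▸ γ.2
  have hγ' : γ = ⟨x⁻¹ * T ^ k * x, hmem⟩ := Subtype.ext hxk
  by_cases hx : x ∈ Gamma0 p
  · have h := hom_conj_of_mem (toMulHom X) hx k hmem
    rw [toMulHom_apply, toMulHom_apply, hT, ← hγ'] at h
    have h' : X (Additive.ofMul γ) = 0 := by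
      have := Multiplicative.ofAdd.injective (h.trans (by simp : (Multiplicative.ofAdd (0 : A)) ^ k
        = Multiplicative.ofAdd (0 : A)))
      exact this
    exact h'
  · obtain ⟨k', rfl⟩ := (conj_T_zpow_mem_iff p hx k).mp hmem
    have h := hom_conj_of_not_mem (toMulHom X) hx k' hmem
    rw [toMulHom_apply, toMulHom_apply, hV, ← hγ'] at h
    have := Multiplicative.ofAdd.injective (h.trans (by simp : (Multiplicative.ofAdd (0 : A)) ^ k'
        = Multiplicative.ofAdd (0 : A)))
    exact this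

end Residue

open Residue

/-- Every homomorphism from `Γ₀(p)` to a torsion-free abelian group has the same value at
`T = (1 1; 0 1)` and `U = (1 0; p 1)`. -/
theorem hom_gT_eq_gU (p : ℕ) [Fact p.Prime] {A : Type*} [AddCommGroup A] [IsAddTorsionFree A]
    (ψ : Additive (Gamma0 p) →+ A) :
    ψ (Additive.ofMul (gT p)) = ψ (Additive.ofMul (gU p)) := by
  have h := hom_tG_add_vG ψ
  rw [vG_eq_gU_inv, tG_eq_gT] at h
  have h2 : ψ (Additive.ofMul (gU p)⁻¹) = - ψ (Additive.ofMul (gU p)) := by
    rw [ofMul_inv, map_neg]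
  rw [h2] at h
  exact add_neg_eq_zero.mp h

/-- **Piece (A5).** A homomorphism `Γ₀(p) → ℂ` that kills `T` is parabolic. -/
theorem mem_parabolicHoms_of_gT (p : ℕ) [Fact p.Prime] (X : Additive (Gamma0 p) →+ ℂ)
    (hT : X (Additive.ofMul (gT p)) = 0) : X ∈ parabolicHoms ℂ (Gamma0 p) ℂ := by
  rw [mem_parabolicHoms_iff]
  intro γ hγ
  have htr : (((γ : SL(2, ℤ)) : Matrix (Fin 2) (Fin 2) ℤ).trace = 2) ∨
      (((γ : SL(2, ℤ)) : Matrix (Fin 2) (Fin 2) ℤ).trace = -2) := by
    have : (((γ : SL(2, ℤ)) : Matrix (Fin 2) (Fin 2) ℤ).trace - 2) *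
        (((γ : SL(2, ℤ)) : Matrix (Fin 2) (Fin 2) ℤ).trace + 2) = 0 := by
      linear_combination hγ
    rcases mul_eq_zero.mp this with h | h
    · left; linarith
    · right; linarith
  rcases htr with h | h
  · exact hom_eq_zero_of_trace_two X hT γ h
  · -- pass to `-γ`
    have hneg : (((negOne p * γ : Gamma0 p) : SL(2, ℤ)) : Matrix (Fin 2) (Fin 2) ℤ).trace = 2 := by
      have : ((negOne p * γ : Gamma0 p) : SL(2, ℤ)) = -(γ : SL(2, ℤ)) := by
        simp [negOne]
      rw [this, Matrix.SpecialLinearGroup.coe_neg, Matrix.trace_neg, h]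
      norm_num
    have h1 := hom_eq_zero_of_trace_two X hT (negOne p * γ) hneg
    have h2 : X (Additive.ofMul (negOne p * γ))
        = X (Additive.ofMul (negOne p)) + X (Additive.ofMul γ) := by
      rw [ofMul_mul, map_add]
    rw [h2, hom_negOne, zero_add] at h1
    exact h1

end Fermat.Agent.S16.LB
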