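import Fermat.Agent.S16.LB.Defs
import Fermat.Agent.S28.DeltaBounds
import Fermat.Agent.S28.LevelOneUnit

/-!
# S16 lower bound: the norm of `Δ` under the Hecke correspondence `T_ℓ` (helper97)

`∏_{x ∈ P¹(𝔽_ℓ)} Δ(α_x z) = c · Δ(z)^{ℓ+1}` with `c ≠ 0`, where `α_x = heckeRep ℓ x` are the
matrices `(1 j; 0 ℓ)` and `(ℓ 0; 0 1)`.

Proof: the product of the translates `Δ ∣[12] α_x` is invariant under `SL₂(ℤ)` in weight
`12 (ℓ + 1)` (coset relation `heckeRep_mul` with `N = 1`), holomorphic, bounded at `i∞` and has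
no zeros; such a level one form is `C · Δ^{ℓ+1}` (`S28/LevelOneUnit.lean`).
-/

set_option autoImplicit false

namespace Fermat.Agent.S16.LB

open CongruenceSubgroup Complex Filter Matrix.SpecialLinearGroup
open UpperHalfPlane hiding I
open ModularForm
open scoped MatrixGroups Real Topology Manifold
open P2MW.S_ModularForm_heckeT_slash_eq_self_of_mem_Gamma0.ModularForm.HeckeSlashInvariance

variable (ℓ : ℕ) [Fact ℓ.Prime]

/-- The product of the `ℓ + 1` translates `Δ ∣[12] α_x`. -/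
noncomputable def deltaNormFun : ℍ → ℂ :=
  ∏ x : OnePoint (ZMod ℓ), (discriminant ∣[(12 : ℤ)] heckeRep ℓ x)

lemma deltaNorm_card : (Finset.univ : Finset (OnePoint (ZMod ℓ))).card = ℓ + 1 := by
  have : NeZero ℓ := ⟨(Fact.out : ℓ.Prime).ne_zero⟩
  rw [Finset.card_univ]
  change Fintype.card (Option (ZMod ℓ)) = ℓ + 1
  rw [Fintype.card_option, ZMod.card]

lemma discriminant_slash_mapGL (g : SL(2, ℤ)) :
    discriminant ∣[(12 : ℤ)] (mapGL ℝ g) = discriminant := by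
  have h := CuspForm.discriminant.slash_action_eq' (mapGL ℝ g) ⟨g, rfl⟩
  simpa [CuspForm.coe_discriminant] using h

/-- each translate is permuted by `SL₂(ℤ)`. -/
lemma discriminant_slash_heckeRep_slash (g : SL(2, ℤ)) (x : OnePoint (ZMod ℓ)) :
    (discriminant ∣[(12 : ℤ)] heckeRep ℓ x) ∣[(12 : ℤ)] (mapGL ℝ g) =
      discriminant ∣[(12 : ℤ)] heckeRep ℓ (redMatrix ℓ g • x) := by
  have hℓ1 : ¬ ℓ ∣ 1 := fun h => (Fact.out : ℓ.Prime).one_lt.ne' (Nat.dvd_one.mp h)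
  obtain ⟨g', -, hmul⟩ := heckeRep_mul (N := 1) hℓ1 g (by simp) x
  rw [← SlashAction.slash_mul, hmul, SlashAction.slash_mul, discriminant_slash_mapGL]

theorem deltaNormFun_slash (g : SL(2, ℤ)) :
    deltaNormFun ℓ ∣[(12 : ℤ) * ((ℓ : ℤ) + 1)] (mapGL ℝ g) = deltaNormFun ℓ := by
  have hk : (12 : ℤ) * ((ℓ : ℤ) + 1)
      = 12 * ((Finset.univ : Finset (OnePoint (ZMod ℓ))).card : ℤ) := by
    rw [deltaNorm_card]; push_cast; ring
  unfold deltaNormFun
  rw [hk, ModularForm.prod_slash]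
  have hdet : |(mapGL ℝ g).det.val| = 1 := by
    simp
  rw [hdet, one_zpow, one_smul]
  rw [Finset.prod_congr rfl fun x _ => discriminant_slash_heckeRep_slash ℓ g x]
  exact Equiv.prod_comp (MulAction.toPerm (redMatrix ℓ g))
    (fun x => discriminant ∣[(12 : ℤ)] heckeRep ℓ x)

lemma exists_heckeRep_slash_apply (x : OnePoint (ZMod ℓ)) :
    ∃ c : ℂ, c ≠ 0 ∧ ∀ z : ℍ,
      (discriminant ∣[(12 : ℤ)] heckeRep ℓ x) z = c * discriminant (heckeRep ℓ x • z) := by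
  have hℓ : ℓ ≠ 0 := (Fact.out : ℓ.Prime).ne_zero
  have hℓC : (ℓ : ℂ) ≠ 0 := by exact_mod_cast hℓ
  induction x using OnePoint.rec with
  | infty =>
    refine ⟨(ℓ : ℂ) ^ ((12 : ℤ) - 1), zpow_ne_zero _ hℓC, fun z => ?_⟩
    rw [heckeRep_infty, slash_heckeDiagMatrix_apply 12 hℓ]
  | coe j =>
    refine ⟨(ℓ : ℂ)⁻¹, inv_ne_zero hℓC, fun z => ?_⟩
    rw [heckeRep_coe, slash_heckeMatrix_apply 12 hℓ]

/-- the constant relating `Δ ∣[12] α_x` and `Δ ∘ α_x`. -/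
noncomputable def heckeRepConst (x : OnePoint (ZMod ℓ)) : ℂ :=
  (exists_heckeRep_slash_apply ℓ x).choose

lemma heckeRepConst_ne_zero (x : OnePoint (ZMod ℓ)) : heckeRepConst ℓ x ≠ 0 :=
  (exists_heckeRep_slash_apply ℓ x).choose_spec.1

lemma heckeRep_slash_apply (x : OnePoint (ZMod ℓ)) (z : ℍ) :
    (discriminant ∣[(12 : ℤ)] heckeRep ℓ x) z
      = heckeRepConst ℓ x * discriminant (heckeRep ℓ x • z) :=
  (exists_heckeRep_slash_apply ℓ x).choose_spec.2 z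

lemma deltaNormFun_apply (z : ℍ) :
    deltaNormFun ℓ z = (∏ x : OnePoint (ZMod ℓ), heckeRepConst ℓ x) *
      ∏ x : OnePoint (ZMod ℓ), discriminant (heckeRep ℓ x • z) := by
  unfold deltaNormFun
  rw [Finset.prod_apply, ← Finset.prod_mul_distrib]
  exact Finset.prod_congr rfl fun x _ => heckeRep_slash_apply ℓ x z

lemma prod_heckeRepConst_ne_zero : (∏ x : OnePoint (ZMod ℓ), heckeRepConst ℓ x) ≠ 0 :=
  Finset.prod_ne_zero_iff.mpr fun x _ => heckeRepConst_ne_zero ℓ x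

lemma deltaNormFun_ne_zero (z : ℍ) : deltaNormFun ℓ z ≠ 0 := by
  rw [deltaNormFun_apply]
  exact mul_ne_zero (prod_heckeRepConst_ne_zero ℓ)
    (Finset.prod_ne_zero_iff.mpr fun x _ => discriminant_ne_zero _)

theorem mdifferentiable_deltaNormFun : MDifferentiable 𝓘(ℂ) 𝓘(ℂ) (deltaNormFun ℓ) := by
  unfold deltaNormFun
  exact MDifferentiable.prod fun x _ =>
    (CuspForm.translate CuspForm.discriminant (heckeRep ℓ x)).holo'

/-- the imaginary part of `α_x z` is at least `Im z / ℓ`. -/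
lemma im_heckeRep_smul_ge (x : OnePoint (ZMod ℓ)) (z : ℍ) :
    z.im / ℓ ≤ (heckeRep ℓ x • z).im := by
  have hℓ : ℓ ≠ 0 := (Fact.out : ℓ.Prime).ne_zero
  have hℓR : (0 : ℝ) < ℓ := by exact_mod_cast Nat.pos_of_ne_zero hℓ
  have hℓ1 : (1 : ℝ) ≤ ℓ := by exact_mod_cast Nat.one_le_iff_ne_zero.mpr hℓ
  induction x using OnePoint.rec with
  | infty =>
    rw [heckeRep_infty]
    change z.im / ℓ ≤ ((heckeDiagMatrix ℓ • z : ℍ) : ℂ).im
    rw [coe_heckeDiagMatrix_smul hℓ]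
    simp only [Complex.mul_im, Complex.natCast_re, Complex.natCast_im, zero_mul, add_zero,
      UpperHalfPlane.coe_im]
    have hz := z.im_pos
    calc z.im / ℓ ≤ z.im := div_le_self hz.le hℓ1
      _ ≤ ℓ * z.im := le_mul_of_one_le_left hz.le hℓ1
  | coe j =>
    rw [heckeRep_coe]
    change z.im / ℓ ≤ ((heckeMatrix ℓ j.val • z : ℍ) : ℂ).im
    rw [coe_heckeMatrix_smul hℓ]
    have : (((z : ℂ) + ((j.val : ℕ) : ℂ)) / (ℓ : ℂ)).im = z.im / ℓ := by
      rw [Complex.div_natCast_im, Complex.add_im, Complex.natCast_im, add_zero,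
        UpperHalfPlane.coe_im]
    rw [this]

theorem isBoundedAtImInfty_deltaNormFun : IsBoundedAtImInfty (deltaNormFun ℓ) := by
  have hℓ : ℓ ≠ 0 := (Fact.out : ℓ.Prime).ne_zero
  have hℓR : (0 : ℝ) < ℓ := by exact_mod_cast Nat.pos_of_ne_zero hℓ
  obtain ⟨c, C, -, hC, hb⟩ :=
    Fermat.Agent.S28.exists_discriminant_bounds (y₀ := 1 / (ℓ : ℝ)) (by positivity)
  rw [UpperHalfPlane.isBoundedAtImInfty_iff]
  refine ⟨(∏ x : OnePoint (ZMod ℓ), ‖heckeRepConst ℓ x‖) *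
    ∏ _x : OnePoint (ZMod ℓ), C, 1, fun z hz => ?_⟩
  rw [deltaNormFun_apply, norm_mul, norm_prod, norm_prod]
  refine mul_le_mul_of_nonneg_left ?_ (Finset.prod_nonneg fun x _ => norm_nonneg _)
  refine Finset.prod_le_prod (fun x _ => norm_nonneg _) fun x _ => ?_
  have him : 1 / (ℓ : ℝ) ≤ (heckeRep ℓ x • z).im :=
    (div_le_div_of_nonneg_right hz hℓR.le).trans (im_heckeRep_smul_ge ℓ x z)
  refine ((hb _ him).2).trans ?_
  have hexp : Real.exp (-2 * π * (heckeRep ℓ x • z).im) ≤ 1 := by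
    rw [Real.exp_le_one_iff]
    have := (heckeRep ℓ x • z).im_pos
    have hpi := Real.pi_pos
    nlinarith
  calc C * Real.exp (-2 * π * (heckeRep ℓ x • z).im) ≤ C * 1 :=
        mul_le_mul_of_nonneg_left hexp hC.le
    _ = C := mul_one C

/-- The norm of `Δ` as a level one modular form of weight `12 (ℓ + 1)`. -/
noncomputable def deltaNormForm : ModularForm 𝒮ℒ ((12 : ℤ) * ((ℓ : ℤ) + 1)) where
  toFun := deltaNormFun ℓ
  slash_action_eq' := by
    rintro _ ⟨γ, rfl⟩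
    exact deltaNormFun_slash ℓ γ
  holo' := mdifferentiable_deltaNormFun ℓ
  bdd_at_cusps' {c} hc := by
    rw [Subgroup.IsArithmetic.isCusp_iff_isCusp_SL2Z] at hc
    rw [OnePoint.isBoundedAt_iff_forall_SL2Z hc]
    intro γ _
    have h := deltaNormFun_slash ℓ γ
    rw [show (deltaNormFun ℓ ∣[(12 : ℤ) * ((ℓ : ℤ) + 1)] γ)
      = deltaNormFun ℓ ∣[(12 : ℤ) * ((ℓ : ℤ) + 1)] (mapGL ℝ γ) from rfl, h]
    exact isBoundedAtImInfty_deltaNormFun ℓ

/-- **Norm identity**: `∏_x Δ(α_x z) = c Δ(z)^{ℓ+1}`. -/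
theorem exists_prod_discriminant_heckeRep (ℓ : ℕ) [Fact ℓ.Prime] :
    ∃ c : ℂ, c ≠ 0 ∧ ∀ z : ℍ,
      ∏ x : OnePoint (ZMod ℓ), ModularForm.discriminant (heckeRep ℓ x • z)
        = c * ModularForm.discriminant z ^ (ℓ + 1) := by
  obtain ⟨C, hC, hCz⟩ := Fermat.Agent.S28.wp3b_eq_const_mul_discriminant_pow (ℓ + 1)
    ((12 : ℤ) * ((ℓ : ℤ) + 1)) (by push_cast; ring) (deltaNormForm ℓ)
    (fun τ => deltaNormFun_ne_zero ℓ τ)
  have hP := prod_heckeRepConst_ne_zero ℓ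
  refine ⟨C / ∏ x : OnePoint (ZMod ℓ), heckeRepConst ℓ x, div_ne_zero hC hP, fun z => ?_⟩
  have h1 : deltaNormFun ℓ z = C * discriminant z ^ (ℓ + 1) := hCz z
  rw [deltaNormFun_apply] at h1
  rw [div_mul_eq_mul_div, eq_div_iff hP, mul_comm, h1]

end Fermat.Agent.S16.LB
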