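import Fermat.Agent.S16.LB.Defs
import Fermat.Agent.S16.LB.DR.Log
import Fermat.Agent.S16.LB.DeltaNorm

/-!
# S16 lower bound, piece (A2): the Dedekind–Rademacher logarithm is a Hecke eigenfunction
Owner: helper97 (see `NOTES/S16-LB-blueprint.md`).

Route: `N_ℓ(z) := ∏_{x ∈ P¹(𝔽_ℓ)} Δ(α_x z) = c Δ(z)^{ℓ+1}` (`DeltaNorm.lean`).
The same at `p z` (`p α_x = α_{p x} p` up to an integer translation) gives
`∏_x u₀(α_x z) = u₀(z)^{ℓ+1}`; take logarithms (continuity + connectedness of `ℍ`,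
`DR/Log.lean: eq_of_exp_eq_exp`).
For `U_p`: `∏_{j mod p} Δ((z+j)/p) · Δ(pz) = c Δ(z)^{p+1}` and `Δ(p (z+j)/p) = Δ(z)`.
-/

set_option autoImplicit false

namespace Fermat.Agent.S16.LB

open CongruenceSubgroup Complex
open UpperHalfPlane hiding I
open ModularForm
open scoped MatrixGroups Real
open P2MW.S_ModularForm_heckeT_slash_eq_self_of_mem_Gamma0.ModularForm.HeckeSlashInvariance

/-- `Δ` only depends on `q = e^{2πiτ}`. -/
lemma discriminant_eq_of_coe_eq_add_nat {τ τ' : ℍ} (t : ℕ) (h : (τ' : ℂ) = (τ : ℂ) + t) :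
    discriminant τ' = discriminant τ := by
  rw [Fermat.Agent.S28.wp2_discriminant_eq_qParam_mul_eulerProd24 τ',
    Fermat.Agent.S28.wp2_discriminant_eq_qParam_mul_eulerProd24 τ]
  have hq : Function.Periodic.qParam 1 (τ' : ℂ) = Function.Periodic.qParam 1 (τ : ℂ) := by
    rw [h]
    simp only [Function.Periodic.qParam]
    have : 2 * π * I * ((τ : ℂ) + (t : ℂ)) / ((1 : ℝ) : ℂ)
        = 2 * π * I * (τ : ℂ) / ((1 : ℝ) : ℂ) + (t : ℕ) * (2 * π * I) := by
      push_cast; ring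
    rw [this, Complex.exp_add, Complex.exp_nat_mul_two_pi_mul_I, mul_one]
  rw [hq]

lemma discriminant_congr {τ τ' : ℍ} (h : (τ' : ℂ) = (τ : ℂ)) :
    discriminant τ' = discriminant τ := by
  rw [UpperHalfPlane.ext h]

lemma continuous_glSmul (α : GL (Fin 2) ℝ) : Continuous fun z : ℍ => α • z :=
  continuous_const_smul α

lemma drUnit_ne_zero (p : ℕ) (z : ℍ) : drUnit p z ≠ 0 :=
  div_ne_zero (discriminant_ne_zero _) (discriminant_ne_zero _)

open scoped OnePoint in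
lemma prod_onePoint_zmod {ℓ : ℕ} [NeZero ℓ] (F : OnePoint (ZMod ℓ) → ℂ) :
    ∏ x : OnePoint (ZMod ℓ), F x = F ∞ * ∏ j : ZMod ℓ, F (j : OnePoint (ZMod ℓ)) :=
  Fintype.prod_option F

section HeckeT

variable {p : ℕ} [Fact p.Prime] (ℓ : ℕ) [Fact ℓ.Prime]

/-- `Δ(p α_j z) = Δ(α_{pj} (p z))`. -/
lemma discriminant_diag_heckeMatrix (j : ZMod ℓ) (z : ℍ) :
    discriminant (heckeDiagMatrix p • heckeMatrix ℓ j.val • z) =
      discriminant (heckeMatrix ℓ (((p : ZMod ℓ) * j).val) • heckeDiagMatrix p • z) := by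
  have hp : p ≠ 0 := (Fact.out : p.Prime).ne_zero
  have hℓ : ℓ ≠ 0 := (Fact.out : ℓ.Prime).ne_zero
  have hℓC : (ℓ : ℂ) ≠ 0 := by exact_mod_cast hℓ
  have hval : ((p : ZMod ℓ) * j).val = (p * j.val) % ℓ := by
    rw [ZMod.val_mul, ZMod.val_natCast, Nat.mod_mul_mod]
  apply discriminant_eq_of_coe_eq_add_nat ((p * j.val) / ℓ)
  rw [coe_heckeDiagMatrix_smul hp, coe_heckeMatrix_smul hℓ, coe_heckeMatrix_smul hℓ,
    coe_heckeDiagMatrix_smul hp, hval]
  have hdm : ((p * j.val : ℕ) : ℂ) = (((p * j.val) % ℓ : ℕ) : ℂ) + (ℓ : ℂ) * (((p * j.val) / ℓ : ℕ) : ℂ) := by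
    exact_mod_cast (Nat.mod_add_div (p * j.val) ℓ).symm
  push_cast at hdm ⊢
  field_simp
  linear_combination hdm

lemma prod_diag_heckeMatrix (hℓ : ¬ ℓ ∣ p) (z : ℍ) :
    ∏ j : ZMod ℓ, discriminant (heckeDiagMatrix p • heckeMatrix ℓ j.val • z)
      = ∏ j : ZMod ℓ, discriminant (heckeMatrix ℓ j.val • heckeDiagMatrix p • z) := by
  have hpℓ : (p : ZMod ℓ) ≠ 0 := by
    rw [Ne, ZMod.natCast_eq_zero_iff]
    exact hℓ
  rw [Finset.prod_congr rfl fun j _ => discriminant_diag_heckeMatrix (p := p) ℓ j z]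
  exact Equiv.prod_comp (Equiv.mulLeft₀ (p : ZMod ℓ) hpℓ)
      (fun j : ZMod ℓ => discriminant (heckeMatrix ℓ j.val • heckeDiagMatrix p • z))

lemma discriminant_diag_diag (z : ℍ) :
    discriminant (heckeDiagMatrix p • heckeDiagMatrix ℓ • z)
      = discriminant (heckeDiagMatrix ℓ • heckeDiagMatrix p • z) := by
  have hp : p ≠ 0 := (Fact.out : p.Prime).ne_zero
  have hℓ0 : ℓ ≠ 0 := (Fact.out : ℓ.Prime).ne_zero
  congr 1
  apply UpperHalfPlane.ext
  rw [coe_heckeDiagMatrix_smul hp, coe_heckeDiagMatrix_smul hℓ0, coe_heckeDiagMatrix_smul hℓ0,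
      coe_heckeDiagMatrix_smul hp]
  ring

omit [Fact p.Prime] in
lemma prod_heckeRep_split_left (z : ℍ) :
    ∏ x : OnePoint (ZMod ℓ), discriminant (heckeDiagMatrix p • heckeRep ℓ x • z) =
      discriminant (heckeDiagMatrix p • heckeDiagMatrix ℓ • z) *
        ∏ j : ZMod ℓ, discriminant (heckeDiagMatrix p • heckeMatrix ℓ j.val • z) := by
  have : NeZero ℓ := ⟨(Fact.out : ℓ.Prime).ne_zero⟩
  rw [prod_onePoint_zmod]
  rfl

lemma prod_heckeRep_split (z : ℍ) :
    ∏ x : OnePoint (ZMod ℓ), discriminant (heckeRep ℓ x • z) =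
      discriminant (heckeDiagMatrix ℓ • z) *
        ∏ j : ZMod ℓ, discriminant (heckeMatrix ℓ j.val • z) := by
  have : NeZero ℓ := ⟨(Fact.out : ℓ.Prime).ne_zero⟩
  rw [prod_onePoint_zmod]
  rfl

/-- `∏_x Δ(p α_x z) = ∏_x Δ(α_x (p z))`. -/
lemma prod_discriminant_diag_heckeRep (hℓ : ¬ ℓ ∣ p) (z : ℍ) :
    ∏ x : OnePoint (ZMod ℓ), discriminant (heckeDiagMatrix p • heckeRep ℓ x • z) =
      ∏ x : OnePoint (ZMod ℓ), discriminant (heckeRep ℓ x • heckeDiagMatrix p • z) := by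
  rw [prod_heckeRep_split_left, prod_heckeRep_split, discriminant_diag_diag,
    prod_diag_heckeMatrix ℓ hℓ]

/-- `∏_x u₀(α_x z) = u₀(z)^{ℓ+1}`. -/
theorem prod_drUnit_heckeRep (hℓ : ¬ ℓ ∣ p) (z : ℍ) :
    ∏ x : OnePoint (ZMod ℓ), drUnit p (heckeRep ℓ x • z) = drUnit p z ^ (ℓ + 1) := by
  obtain ⟨c, hc, hcz⟩ := exists_prod_discriminant_heckeRep ℓ
  unfold drUnit
  rw [Finset.prod_div_distrib, prod_discriminant_diag_heckeRep ℓ hℓ z, hcz z,
    hcz (heckeDiagMatrix p • z), div_pow]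
  have h1 : discriminant (heckeDiagMatrix p • z) ^ (ℓ + 1) ≠ 0 :=
    pow_ne_zero _ (discriminant_ne_zero _)
  rw [mul_div_mul_left _ _ hc]

end HeckeT

/-- `T_ℓ L = (1 + ℓ) L + const` for `ℓ ≠ p`. -/
theorem DRData.sum_heckeRep {p : ℕ} [Fact p.Prime] (D : DRData p) (ℓ : ℕ) [Fact ℓ.Prime]
    (hℓ : ¬ ℓ ∣ p) :
    ∃ c : ℂ, ∀ z : ℍ,
      ∑ x : OnePoint (ZMod ℓ), D.L (heckeRep ℓ x • z) = (1 + (ℓ : ℂ)) * D.L z + c := by
  set G : ℍ → ℂ := fun z =>
    ∑ x : OnePoint (ZMod ℓ), D.L (heckeRep ℓ x • z) - (1 + (ℓ : ℂ)) * D.L z with hG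
  have hLc : Continuous D.L := D.mdiff.continuous
  have hGc : Continuous G := by
    refine Continuous.sub ?_ (continuous_const.mul hLc)
    exact continuous_finsetSum _ fun x _ => hLc.comp (continuous_glSmul _)
  have hexp : ∀ z, cexp (G z) = 1 := by
    intro z
    simp only [hG]
    rw [Complex.exp_sub, Complex.exp_sum]
    have h1 : (1 + (ℓ : ℂ)) * D.L z = ((ℓ + 1 : ℕ) : ℂ) * D.L z := by push_cast; ring
    rw [h1, Complex.exp_nat_mul, D.exp_L,
      Finset.prod_congr rfl fun x _ => D.exp_L (heckeRep ℓ x • z), prod_drUnit_heckeRep ℓ hℓ z]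
    exact div_self (pow_ne_zero _ (drUnit_ne_zero p z))
  refine ⟨G UpperHalfPlane.I, fun z => ?_⟩
  have hconst : G z = G UpperHalfPlane.I :=
    eq_of_exp_eq_exp hGc (fun x y => by rw [hexp x, hexp y]) z UpperHalfPlane.I
  rw [← hconst]
  simp only [hG]
  ring

/-- `∏_j u₀(α_j z) = c u₀(z)`. -/
theorem exists_prod_drUnit_heckeMatrix (p : ℕ) [Fact p.Prime] :
    ∃ c : ℂ, ∀ z : ℍ, ∏ j : ZMod p, drUnit p (heckeMatrix p j.val • z) = c * drUnit p z := by
  have hp : p ≠ 0 := (Fact.out : p.Prime).ne_zero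
  have hpC : (p : ℂ) ≠ 0 := by exact_mod_cast hp
  have : NeZero p := ⟨hp⟩
  obtain ⟨c, hc, hcz⟩ := exists_prod_discriminant_heckeRep p
  refine ⟨c, fun z => ?_⟩
  have h2 : ∏ x : OnePoint (ZMod p), discriminant (heckeRep p x • z)
      = discriminant (heckeDiagMatrix p • z) *
        ∏ j : ZMod p, discriminant (heckeMatrix p j.val • z) := prod_heckeRep_split p z
  rw [hcz z] at h2
  have hden : ∀ j : ZMod p, discriminant (heckeDiagMatrix p • heckeMatrix p j.val • z)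
      = discriminant z := by
    intro j
    apply discriminant_eq_of_coe_eq_add_nat j.val
    rw [coe_heckeDiagMatrix_smul hp, coe_heckeMatrix_smul hp]
    field_simp
  unfold drUnit
  rw [Finset.prod_div_distrib, Finset.prod_congr rfl fun j _ => hden j, Finset.prod_const,
    Finset.card_univ, ZMod.card]
  have hΔ : discriminant z ≠ 0 := discriminant_ne_zero z
  have hΔp : discriminant (heckeDiagMatrix p • z) ≠ 0 := discriminant_ne_zero _
  rw [div_eq_iff (pow_ne_zero _ hΔ)]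
  have h3 : ∏ j : ZMod p, discriminant (heckeMatrix p j.val • z)
      = c * discriminant z ^ (p + 1) / discriminant (heckeDiagMatrix p • z) := by
    rw [eq_div_iff hΔp, h2]; ring
  rw [h3]
  field_simp
  ring

/-- `U_p L = L + const`. -/
theorem DRData.sum_heckeMatrix {p : ℕ} [Fact p.Prime] (D : DRData p) :
    ∃ c : ℂ, ∀ z : ℍ,
      ∑ j : ZMod p, D.L (ModularForm.heckeMatrix p j.val • z) = D.L z + c := by
  have hp : p ≠ 0 := (Fact.out : p.Prime).ne_zero
  have : NeZero p := ⟨hp⟩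
  obtain ⟨c, hc⟩ := exists_prod_drUnit_heckeMatrix p
  set G : ℍ → ℂ := fun z =>
    ∑ j : ZMod p, D.L (ModularForm.heckeMatrix p j.val • z) - D.L z with hG
  have hLc : Continuous D.L := D.mdiff.continuous
  have hGc : Continuous G := by
    refine Continuous.sub ?_ hLc
    exact continuous_finsetSum _ fun x _ => hLc.comp (continuous_glSmul _)
  have hexp : ∀ z, cexp (G z) = c := by
    intro z
    simp only [hG]
    rw [Complex.exp_sub, Complex.exp_sum, D.exp_L,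
      Finset.prod_congr rfl fun j _ => D.exp_L (heckeMatrix p j.val • z), hc z]
    exact mul_div_cancel_right₀ _ (drUnit_ne_zero p z)
  refine ⟨G UpperHalfPlane.I, fun z => ?_⟩
  have hconst : G z = G UpperHalfPlane.I :=
    eq_of_exp_eq_exp hGc (fun x y => by rw [hexp x, hexp y]) z UpperHalfPlane.I
  rw [← hconst]
  simp only [hG]
  ring

end Fermat.Agent.S16.LB
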