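import Fermat.Agent.S16.LB.Defs
import Fermat.Prelude.Def_CuspForm_HeckeAlgebra
import Fermat.Agent.S21.Parabolic
import Fermat.Agent.S21.Injective
import Fermat.Agent.S22.HeckeDeriv
import Fermat.Agent.S22.Eichler

/-!
# S16 lower bound, piece (A3): Hecke operators and the period map (coset form)
Owner: helper22.

All four statements are instances of `sum_period_of_coset` (in `Defs.lean`), applied to the
primitive `prim f` of a cusp form `f` (and to `prim f ∘ J`, `J z = -conj z`).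
-/

set_option autoImplicit false

namespace Fermat.Agent.S16.LB

open CongruenceSubgroup UpperHalfPlane ModularCurve ModularCurve.Period
open Matrix.SpecialLinearGroup
open scoped MatrixGroups Manifold ModularForm
open P2MW.S_ModularForm_heckeT_slash_eq_self_of_mem_Gamma0.ModularForm.HeckeSlashInvariance

section prim

variable {N : ℕ} [NeZero N]

/-- A chosen equivariant primitive of a weight two cusp form. -/
noncomputable def prim (f : CuspForm (Gamma0 N) 2) : ℍ → ℂ :=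
  Classical.choose (Fermat.Agent.S21.exists_hasEquivariantPrimitive N f)

theorem prim_spec (f : CuspForm (Gamma0 N) 2) : HasEquivariantPrimitive N f (prim f) :=
  Classical.choose_spec (Fermat.Agent.S21.exists_hasEquivariantPrimitive N f)

theorem periodMap_eq_prim (f : CuspForm (Gamma0 N) 2) :
    periodMap N f = (prim_spec f).2.2.1.periodHom :=
  Fermat.Agent.S21.periodMap_eq_periodHom N f (prim_spec f)

theorem mdiff_prim (f : CuspForm (Gamma0 N) 2) : MDiff (prim f) :=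
  Fermat.Agent.S21.mdiff_of_hasDerivAt (prim_spec f).1

theorem dH_prim (f : CuspForm (Gamma0 N) 2) : Fermat.Agent.S22.dH (prim f) = f :=
  Fermat.Agent.S22.dH_eq_of_hasDerivAt (prim_spec f).1

/-- The primitive is `1`-periodic. -/
theorem prim_one_vadd (f : CuspForm (Gamma0 N) 2) (w : ℍ) :
    prim f ((1 : ℝ) +ᵥ w) = prim f w := by
  have hT : (ModularGroup.T : SL(2, ℤ)) ∈ Gamma0 N := by
    rw [Gamma0_mem]; simp [ModularGroup.T]
  have h1 := (prim_spec f).2.2.1.sub_eq_period ⟨ModularGroup.T, hT⟩ w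
  have h2 : (prim_spec f).2.2.1.period ⟨ModularGroup.T, hT⟩ = 0 := by
    apply Fermat.Agent.S21.period_eq_zero_of_trace_sq (prim_spec f)
    simp [ModularGroup.T, Matrix.trace_fin_two]
  rw [h2] at h1
  have h3 : ((⟨ModularGroup.T, hT⟩ : Gamma0 N) : SL(2, ℤ)) • w = (1 : ℝ) +ᵥ w :=
    UpperHalfPlane.modular_T_smul w
  rw [h3] at h1
  exact sub_eq_zero.mp h1

/-- `prim f ∘ J` is an equivariant primitive. -/
theorem isEquivariantPrimitive_primJ (f : CuspForm (Gamma0 N) 2) :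
    IsEquivariantPrimitive (Gamma0 N) fun z => prim f (J • z) := by
  intro γ
  refine ⟨(prim_spec f).2.2.1.period (jConjGamma0 N γ), fun z => ?_⟩
  have h := (prim_spec f).2.2.1.sub_eq_period (jConjGamma0 N γ) (J • z)
  rw [jConjGamma0_coe] at h
  show prim f (J • ((γ : SL(2, ℤ)) • z)) - prim f (J • z) = _
  rw [Fermat.Agent.S21.J_smul_smul]
  exact h

theorem periodHom_primJ (f : CuspForm (Gamma0 N) 2) (γ : Gamma0 N) :
    (isEquivariantPrimitive_primJ f).periodHom (Additive.ofMul γ) =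
      periodMap N f (Additive.ofMul (jConjGamma0 N γ)) := by
  rw [IsEquivariantPrimitive.periodHom_apply,
    ← (isEquivariantPrimitive_primJ f).sub_eq_period γ I, periodMap_eq_prim,
    IsEquivariantPrimitive.periodHom_apply,
    ← (prim_spec f).2.2.1.sub_eq_period (jConjGamma0 N γ) (J • I), jConjGamma0_coe,
    ← Fermat.Agent.S21.J_smul_smul]

end prim

/-! ### The function identities `∑ₓ F(αₓ z) = F'(z) + c` -/

section identities

variable {N : ℕ} [NeZero N]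

theorem smul_heckeT_zero_apply {ℓ : ℕ} [NeZero ℓ] (F : ℍ → ℂ) (z : ℍ) :
    ((ℓ : ℂ) • ModularForm.heckeT 0 ℓ F) z = ∑ x : OnePoint (ZMod ℓ), F (heckeRep ℓ x • z) := by
  have hℓ : ℓ ≠ 0 := NeZero.ne ℓ
  have hℓ' : (ℓ : ℂ) ≠ 0 := by exact_mod_cast hℓ
  rw [heckeT_eq_sum_onePoint, Pi.smul_apply, Finset.sum_apply, smul_eq_mul, Finset.mul_sum]
  refine Finset.sum_congr rfl fun x _ => ?_
  induction x using OnePoint.rec with
  | infty =>
    rw [heckeRep_infty, ModularForm.slash_heckeDiagMatrix_apply 0 hℓ, zero_sub, zpow_neg_one,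
      ← mul_assoc, mul_inv_cancel₀ hℓ', one_mul]
  | coe j =>
    rw [heckeRep_coe, ModularForm.slash_heckeMatrix_apply 0 hℓ, ← mul_assoc,
      mul_inv_cancel₀ hℓ', one_mul]

theorem smul_heckeU_zero_apply {ℓ : ℕ} [NeZero ℓ] (F : ℍ → ℂ) (z : ℍ) :
    ((ℓ : ℂ) • ModularForm.heckeU 0 ℓ F) z =
      ∑ j : ZMod ℓ, F (ModularForm.heckeMatrix ℓ j.val • z) := by
  have hℓ : ℓ ≠ 0 := NeZero.ne ℓ
  have hℓ' : (ℓ : ℂ) ≠ 0 := by exact_mod_cast hℓ
  rw [heckeU_eq_sum_zmod, Pi.smul_apply, Finset.sum_apply, smul_eq_mul, Finset.mul_sum]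
  refine Finset.sum_congr rfl fun j _ => ?_
  rw [ModularForm.slash_heckeMatrix_apply 0 hℓ, ← mul_assoc, mul_inv_cancel₀ hℓ', one_mul]

theorem dH_smul_heckeT_zero {ℓ : ℕ} (hℓ : ℓ ≠ 0) {F : ℍ → ℂ} (hF : MDiff F) :
    Fermat.Agent.S22.dH ((ℓ : ℂ) • ModularForm.heckeT 0 ℓ F) =
      ModularForm.heckeT 2 ℓ (Fermat.Agent.S22.dH F) := by
  have h := Fermat.Agent.S22.iterate_dH_heckeT 0 hℓ hF
  simpa only [zero_add, Function.iterate_one, pow_one, Nat.cast_zero, neg_zero] using h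

theorem dH_smul_heckeU_zero {ℓ : ℕ} (hℓ : ℓ ≠ 0) {F : ℍ → ℂ} (hF : MDiff F) :
    Fermat.Agent.S22.dH ((ℓ : ℂ) • ModularForm.heckeU 0 ℓ F) =
      ModularForm.heckeU 2 ℓ (Fermat.Agent.S22.dH F) := by
  have h := Fermat.Agent.S22.iterate_dH_heckeU 0 hℓ hF
  simpa only [zero_add, Function.iterate_one, pow_one, Nat.cast_zero, neg_zero] using h

/-- `∑ₓ F_f(αₓ z) = F_{T_ℓ f}(z) + c`. -/
theorem sum_prim_heckeRep {ℓ : ℕ} [Fact ℓ.Prime] (hℓN : ¬ ℓ ∣ N) (f : CuspForm (Gamma0 N) 2) :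
    ∃ c : ℂ, ∀ z : ℍ, ∑ x : OnePoint (ZMod ℓ), prim f (heckeRep ℓ x • z) =
      prim (CuspForm.heckeTLin 2 (Fact.out : ℓ.Prime) hℓN f) z + c := by
  have hℓ : ℓ ≠ 0 := (Fact.out : ℓ.Prime).ne_zero
  set G : ℍ → ℂ := (ℓ : ℂ) • ModularForm.heckeT 0 ℓ (prim f) with hG
  have hGm : MDiff G := (Fermat.Agent.S22.mdiff_heckeT (mdiff_prim f) 0 ℓ).const_smul _
  have hGd : ∀ τ : ℍ, HasDerivAt (G ∘ ofComplex)
      ((CuspForm.heckeTLin 2 (Fact.out : ℓ.Prime) hℓN f) τ) τ := by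
    intro τ
    have h := Fermat.Agent.S22.hasDerivAt_dH hGm τ
    rw [hG, dH_smul_heckeT_zero hℓ (mdiff_prim f), dH_prim] at h
    exact h
  refine ⟨G I - prim (CuspForm.heckeTLin 2 (Fact.out : ℓ.Prime) hℓN f) I, fun z => ?_⟩
  have h := Fermat.Agent.S21.sub_eq_sub_of_hasDerivAt hGd
    (prim_spec (CuspForm.heckeTLin 2 (Fact.out : ℓ.Prime) hℓN f)).1 z I
  rw [← smul_heckeT_zero_apply]
  linear_combination h

/-- `∑ⱼ F_f((z + j)/p) = F_{U_p f}(z) + c`. -/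
theorem sum_prim_heckeMatrix {q : ℕ} [NeZero q] (hqN : q ∣ N) (f : CuspForm (Gamma0 N) 2) :
    ∃ c : ℂ, ∀ z : ℍ, ∑ j : ZMod q, prim f (ModularForm.heckeMatrix q j.val • z) =
      prim (CuspForm.heckeULin 2 hqN f) z + c := by
  have hq : q ≠ 0 := NeZero.ne q
  set G : ℍ → ℂ := (q : ℂ) • ModularForm.heckeU 0 q (prim f) with hG
  have hGm : MDiff G := (Fermat.Agent.S22.mdiff_heckeU (mdiff_prim f) 0 q).const_smul _
  have hGd : ∀ τ : ℍ, HasDerivAt (G ∘ ofComplex) ((CuspForm.heckeULin 2 hqN f) τ) τ := by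
    intro τ
    have h := Fermat.Agent.S22.hasDerivAt_dH hGm τ
    rw [hG, dH_smul_heckeU_zero hq (mdiff_prim f), dH_prim] at h
    exact h
  refine ⟨G I - prim (CuspForm.heckeULin 2 hqN f) I, fun z => ?_⟩
  have h := Fermat.Agent.S21.sub_eq_sub_of_hasDerivAt hGd
    (prim_spec (CuspForm.heckeULin 2 hqN f)).1 z I
  rw [← smul_heckeU_zero_apply]
  linear_combination h

/-- `J α_j = T⁻¹ α_{-j} J` on `ℍ`, and `prim f` is `1`-periodic. -/
theorem prim_J_heckeMatrix (f : CuspForm (Gamma0 N) 2) {ℓ : ℕ} [NeZero ℓ] (j : ZMod ℓ) (z : ℍ) :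
    prim f (J • (ModularForm.heckeMatrix ℓ j.val • z)) =
      prim f (ModularForm.heckeMatrix ℓ (-j).val • (J • z)) := by
  have hℓ : ℓ ≠ 0 := NeZero.ne ℓ
  have hℓ' : (ℓ : ℂ) ≠ 0 := by exact_mod_cast hℓ
  by_cases hj : j = 0
  · subst hj
    congr 1
    apply UpperHalfPlane.ext
    rw [coe_J_smul, ModularForm.coe_heckeMatrix_smul hℓ, ModularForm.coe_heckeMatrix_smul hℓ,
      coe_J_smul]
    simp [map_div₀, neg_div]
  · have key : ModularForm.heckeMatrix ℓ (-j).val • (J • z) =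
        (1 : ℝ) +ᵥ (J • (ModularForm.heckeMatrix ℓ j.val • z)) := by
      apply UpperHalfPlane.ext
      rw [UpperHalfPlane.coe_vadd, coe_J_smul, ModularForm.coe_heckeMatrix_smul hℓ,
        ModularForm.coe_heckeMatrix_smul hℓ, coe_J_smul, ZMod.neg_val, if_neg hj,
        Nat.cast_sub (ZMod.val_lt j).le]
      simp only [map_div₀, map_add, Complex.conj_natCast, Complex.ofReal_one]
      field_simp
      ring
    rw [key, prim_one_vadd]

theorem prim_J_heckeDiagMatrix (f : CuspForm (Gamma0 N) 2) {ℓ : ℕ} [NeZero ℓ] (z : ℍ) :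
    prim f (J • (ModularForm.heckeDiagMatrix ℓ • z)) =
      prim f (ModularForm.heckeDiagMatrix ℓ • (J • z)) := by
  have hℓ : ℓ ≠ 0 := NeZero.ne ℓ
  congr 1
  apply UpperHalfPlane.ext
  rw [coe_J_smul, ModularForm.coe_heckeDiagMatrix_smul hℓ, ModularForm.coe_heckeDiagMatrix_smul hℓ,
    coe_J_smul]
  simp

/-- `∑ₓ F_f(J αₓ z) = F_{T_ℓ f}(J z) + c`. -/
theorem sum_primJ_heckeRep {ℓ : ℕ} [Fact ℓ.Prime] (hℓN : ¬ ℓ ∣ N) (f : CuspForm (Gamma0 N) 2) :
    ∃ c : ℂ, ∀ z : ℍ, ∑ x : OnePoint (ZMod ℓ), prim f (J • (heckeRep ℓ x • z)) =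
      prim (CuspForm.heckeTLin 2 (Fact.out : ℓ.Prime) hℓN f) (J • z) + c := by
  obtain ⟨c, hc⟩ := sum_prim_heckeRep hℓN f
  refine ⟨c, fun z => ?_⟩
  rw [← hc (J • z)]
  have h1 : ∑ x : OnePoint (ZMod ℓ), prim f (J • (heckeRep ℓ x • z)) =
      prim f (J • (ModularForm.heckeDiagMatrix ℓ • z)) +
        ∑ j : ZMod ℓ, prim f (J • (ModularForm.heckeMatrix ℓ j.val • z)) :=
    Fintype.sum_option (fun x : OnePoint (ZMod ℓ) => prim f (J • (heckeRep ℓ x • z)))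
  have h2 : ∑ x : OnePoint (ZMod ℓ), prim f (heckeRep ℓ x • (J • z)) =
      prim f (ModularForm.heckeDiagMatrix ℓ • (J • z)) +
        ∑ j : ZMod ℓ, prim f (ModularForm.heckeMatrix ℓ j.val • (J • z)) :=
    Fintype.sum_option (fun x : OnePoint (ZMod ℓ) => prim f (heckeRep ℓ x • (J • z)))
  rw [h1, h2, prim_J_heckeDiagMatrix f z]
  congr 1
  rw [← Equiv.sum_comp (Equiv.neg (ZMod ℓ))
      (fun j : ZMod ℓ => prim f (ModularForm.heckeMatrix ℓ j.val • (J • z)))]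
  exact Finset.sum_congr rfl fun j _ => prim_J_heckeMatrix f j z

/-- `∑ⱼ F_f(J αⱼ z) = F_{U_q f}(J z) + c`. -/
theorem sum_primJ_heckeMatrix {q : ℕ} [NeZero q] (hqN : q ∣ N) (f : CuspForm (Gamma0 N) 2) :
    ∃ c : ℂ, ∀ z : ℍ, ∑ j : ZMod q, prim f (J • (ModularForm.heckeMatrix q j.val • z)) =
      prim (CuspForm.heckeULin 2 hqN f) (J • z) + c := by
  obtain ⟨c, hc⟩ := sum_prim_heckeMatrix hqN f
  refine ⟨c, fun z => ?_⟩
  rw [← hc (J • z), ← Equiv.sum_comp (Equiv.neg (ZMod q))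
      (fun j : ZMod q => prim f (ModularForm.heckeMatrix q j.val • (J • z)))]
  exact Finset.sum_congr rfl fun j _ => prim_J_heckeMatrix f j z

end identities

/-! ### The four coset relations for the period map -/

variable {p : ℕ} [Fact p.Prime]

theorem periodMap_heckeT_coset {ℓ : ℕ} [Fact ℓ.Prime] (hℓp : ¬ ℓ ∣ p)
    (f : CuspForm (Gamma0 p) 2) (γ : Gamma0 p) (γ' : OnePoint (ZMod ℓ) → Gamma0 p)
    (e : Equiv.Perm (OnePoint (ZMod ℓ)))
    (hγ' : ∀ x, heckeRep ℓ x * mapGL ℝ (γ : SL(2, ℤ)) =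
      mapGL ℝ (γ' x : SL(2, ℤ)) * heckeRep ℓ (e x)) :
    ∑ x, periodMap p f (Additive.ofMul (γ' x)) =
      periodMap p (CuspForm.heckeTLin 2 (Fact.out : ℓ.Prime) hℓp f) (Additive.ofMul γ) := by
  obtain ⟨c, hc⟩ := sum_prim_heckeRep hℓp f
  have h := sum_period_of_coset (prim_spec f).2.2.1
    (prim_spec (CuspForm.heckeTLin 2 (Fact.out : ℓ.Prime) hℓp f)).2.2.1 (heckeRep ℓ) c hc γ γ' e hγ'
  rw [periodMap_eq_prim f, periodMap_eq_prim (CuspForm.heckeTLin 2 (Fact.out : ℓ.Prime) hℓp f)]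
  exact h

theorem periodMap_jConj_heckeT_coset {ℓ : ℕ} [Fact ℓ.Prime] (hℓp : ¬ ℓ ∣ p)
    (f : CuspForm (Gamma0 p) 2) (γ : Gamma0 p) (γ' : OnePoint (ZMod ℓ) → Gamma0 p)
    (e : Equiv.Perm (OnePoint (ZMod ℓ)))
    (hγ' : ∀ x, heckeRep ℓ x * mapGL ℝ (γ : SL(2, ℤ)) =
      mapGL ℝ (γ' x : SL(2, ℤ)) * heckeRep ℓ (e x)) :
    ∑ x, periodMap p f (Additive.ofMul (jConjGamma0 p (γ' x))) =
      periodMap p (CuspForm.heckeTLin 2 (Fact.out : ℓ.Prime) hℓp f)
        (Additive.ofMul (jConjGamma0 p γ)) := by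
  obtain ⟨c, hc⟩ := sum_primJ_heckeRep hℓp f
  have h := sum_period_of_coset (isEquivariantPrimitive_primJ f)
    (isEquivariantPrimitive_primJ (CuspForm.heckeTLin 2 (Fact.out : ℓ.Prime) hℓp f))
    (heckeRep ℓ) c hc γ γ' e hγ'
  simp only [periodHom_primJ] at h
  exact h

theorem periodMap_heckeU_coset
    (f : CuspForm (Gamma0 p) 2) (γ : Gamma0 p) (γ' : ZMod p → Gamma0 p)
    (e : Equiv.Perm (ZMod p))
    (hγ' : ∀ x : ZMod p, ModularForm.heckeMatrix p x.val * mapGL ℝ (γ : SL(2, ℤ)) =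
      mapGL ℝ (γ' x : SL(2, ℤ)) * ModularForm.heckeMatrix p (e x).val) :
    ∑ x, periodMap p f (Additive.ofMul (γ' x)) =
      periodMap p (CuspForm.heckeULin 2 (dvd_refl p) f) (Additive.ofMul γ) := by
  obtain ⟨c, hc⟩ := sum_prim_heckeMatrix (dvd_refl p) f
  have h := sum_period_of_coset (prim_spec f).2.2.1
    (prim_spec (CuspForm.heckeULin 2 (dvd_refl p) f)).2.2.1
    (fun j : ZMod p => ModularForm.heckeMatrix p j.val) c hc γ γ' e hγ'
  rw [periodMap_eq_prim f, periodMap_eq_prim (CuspForm.heckeULin 2 (dvd_refl p) f)]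
  exact h

theorem periodMap_jConj_heckeU_coset
    (f : CuspForm (Gamma0 p) 2) (γ : Gamma0 p) (γ' : ZMod p → Gamma0 p)
    (e : Equiv.Perm (ZMod p))
    (hγ' : ∀ x : ZMod p, ModularForm.heckeMatrix p x.val * mapGL ℝ (γ : SL(2, ℤ)) =
      mapGL ℝ (γ' x : SL(2, ℤ)) * ModularForm.heckeMatrix p (e x).val) :
    ∑ x, periodMap p f (Additive.ofMul (jConjGamma0 p (γ' x))) =
      periodMap p (CuspForm.heckeULin 2 (dvd_refl p) f) (Additive.ofMul (jConjGamma0 p γ)) := by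
  obtain ⟨c, hc⟩ := sum_primJ_heckeMatrix (dvd_refl p) f
  have h := sum_period_of_coset (isEquivariantPrimitive_primJ f)
    (isEquivariantPrimitive_primJ (CuspForm.heckeULin 2 (dvd_refl p) f))
    (fun j : ZMod p => ModularForm.heckeMatrix p j.val) c hc γ γ' e hγ'
  simp only [periodHom_primJ] at h
  exact h

end Fermat.Agent.S16.LB
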