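import Fermat.Agent.S16.LB.Defs
import Fermat.Agent.S16.LB.DRHecke
import Fermat.Agent.S16.LB.HeckePeriod
import Fermat.Agent.S22.HeckeT
import Fermat.Agent.S22.HeckeU

/-!
# S16 lower bound, piece (C1): transfer of Hecke polynomials to group elements
Owner: helper22.

`HeckeTransfer D P`: for every `γ ∈ Γ₀(p)` there is `γ' ∈ Γ₀(p)` such that the period of every
cusp form `f` along `γ'` (and along `j γ'`) is the period of `P f` along `γ` (and `j γ`), and
`φ γ' = P(eis) φ γ`.  Proved by `MvPolynomial.induction_on`.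
-/

set_option autoImplicit false
set_option linter.unusedSectionVars false
set_option linter.style.haveILetI false

namespace Fermat.Agent.S16.LB

open CongruenceSubgroup UpperHalfPlane ModularCurve ModularCurve.Period CuspForm
open Matrix.SpecialLinearGroup
open scoped MatrixGroups Real
open P2MW.S_ModularForm_heckeT_slash_eq_self_of_mem_Gamma0.ModularForm.HeckeSlashInvariance

/-! ### Products of families in a group and homomorphisms to commutative groups -/

/-- The product of a finite family in a group, in some fixed order. -/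
noncomputable def famProd {ι G : Type*} [Fintype ι] [Group G] (g : ι → G) : G :=
  ((Finset.univ : Finset ι).toList.map g).prod

theorem map_list_prod_ofMul {ι G A : Type*} [Group G] [AddCommGroup A] (ψ : Additive G →+ A)
    (g : ι → G) (l : List ι) :
    ψ (Additive.ofMul (l.map g).prod) = (l.map fun i => ψ (Additive.ofMul (g i))).sum := by
  induction l with
  | nil => simp
  | cons a l ih =>
    rw [List.map_cons, List.prod_cons, ofMul_mul, map_add, ih, List.map_cons, List.sum_cons]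

theorem map_famProd {ι G A : Type*} [Fintype ι] [Group G] [AddCommGroup A]
    (ψ : Additive G →+ A) (g : ι → G) :
    ψ (Additive.ofMul (famProd g)) = ∑ i, ψ (Additive.ofMul (g i)) := by
  rw [famProd, map_list_prod_ofMul, Finset.sum_map_toList]

/-! ### Linearity of the period map -/

section linear

variable {N : ℕ} [NeZero N]

theorem periodMap_add' (f g : CuspForm (Gamma0 N) 2) :
    periodMap N (f + g) = periodMap N f + periodMap N g := by
  obtain ⟨pml, hpml⟩ := Fermat.Agent.S21.existsPeriodMapLinear N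
  rw [← hpml, ← hpml, ← hpml, map_add]

theorem periodMap_zsmul' (a : ℤ) (f : CuspForm (Gamma0 N) 2) :
    periodMap N (a • f) = a • periodMap N f := by
  obtain ⟨pml, hpml⟩ := Fermat.Agent.S21.existsPeriodMapLinear N
  rw [← hpml, ← hpml, map_zsmul]

theorem periodMap_zero' : periodMap N (0 : CuspForm (Gamma0 N) 2) = 0 := by
  obtain ⟨pml, hpml⟩ := Fermat.Agent.S21.existsPeriodMapLinear N
  rw [← hpml, map_zero]

end linear

/-! ### The coset relations for `φ` -/

section phi

variable {p : ℕ} [Fact p.Prime]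

theorem DRData.isEquivariantPrimitive_mul (D : DRData p) (a : ℂ) :
    IsEquivariantPrimitive (Gamma0 p) fun z => a * (D.L z / (2 * π * Complex.I)) := by
  intro γ
  refine ⟨a * (D.φ (Additive.ofMul γ) : ℂ), fun z => ?_⟩
  have h := D.isEquivariantPrimitive.sub_eq_period γ z
  rw [← IsEquivariantPrimitive.periodHom_apply, D.periodHom_apply] at h
  rw [← mul_sub, h]

theorem DRData.periodHom_mul_apply (D : DRData p) (a : ℂ) (γ : Gamma0 p) :
    (D.isEquivariantPrimitive_mul a).periodHom (Additive.ofMul γ) =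
      a * (D.φ (Additive.ofMul γ) : ℂ) := by
  rw [IsEquivariantPrimitive.periodHom_apply,
    ← (D.isEquivariantPrimitive_mul a).sub_eq_period γ I]
  have h := D.isEquivariantPrimitive.sub_eq_period γ I
  rw [← IsEquivariantPrimitive.periodHom_apply, D.periodHom_apply] at h
  rw [← mul_sub, h]

theorem DRData.sum_φ_heckeT (D : DRData p) {ℓ : ℕ} [Fact ℓ.Prime] (hℓp : ¬ ℓ ∣ p)
    (γ : Gamma0 p) (γ' : OnePoint (ZMod ℓ) → Gamma0 p) (e : Equiv.Perm (OnePoint (ZMod ℓ)))
    (hγ' : ∀ x, heckeRep ℓ x * mapGL ℝ (γ : SL(2, ℤ)) =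
      mapGL ℝ (γ' x : SL(2, ℤ)) * heckeRep ℓ (e x)) :
    ∑ x, D.φ (Additive.ofMul (γ' x)) = (1 + (ℓ : ℤ)) * D.φ (Additive.ofMul γ) := by
  obtain ⟨c, hc⟩ := D.sum_heckeRep ℓ hℓp
  have h : ∀ z : ℍ, ∑ x : OnePoint (ZMod ℓ), D.L (heckeRep ℓ x • z) / (2 * π * Complex.I) =
      (1 + (ℓ : ℂ)) * (D.L z / (2 * π * Complex.I)) + c / (2 * π * Complex.I) := by
    intro z
    rw [← Finset.sum_div, hc z]
    ring
  have key := sum_period_of_coset D.isEquivariantPrimitive
    (D.isEquivariantPrimitive_mul (1 + (ℓ : ℂ))) (heckeRep ℓ) _ h γ γ' e hγ'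
  simp only [D.periodHom_apply, D.periodHom_mul_apply] at key
  exact_mod_cast key

theorem DRData.sum_φ_heckeU (D : DRData p)
    (γ : Gamma0 p) (γ' : ZMod p → Gamma0 p) (e : Equiv.Perm (ZMod p))
    (hγ' : ∀ x : ZMod p, ModularForm.heckeMatrix p x.val * mapGL ℝ (γ : SL(2, ℤ)) =
      mapGL ℝ (γ' x : SL(2, ℤ)) * ModularForm.heckeMatrix p (e x).val) :
    ∑ x, D.φ (Additive.ofMul (γ' x)) = D.φ (Additive.ofMul γ) := by
  obtain ⟨c, hc⟩ := D.sum_heckeMatrix
  have h : ∀ z : ℍ, ∑ j : ZMod p, D.L (ModularForm.heckeMatrix p j.val • z) / (2 * π * Complex.I) =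
      D.L z / (2 * π * Complex.I) + c / (2 * π * Complex.I) := by
    intro z
    rw [← Finset.sum_div, hc z]
    ring
  have key := sum_period_of_coset D.isEquivariantPrimitive D.isEquivariantPrimitive
    (fun j : ZMod p => ModularForm.heckeMatrix p j.val) _ h γ γ' e hγ'
  simp only [D.periodHom_apply] at key
  exact_mod_cast key

end phi

/-! ### The transfer property -/

/-- The transfer property of a Hecke polynomial `P`. -/
def HeckeTransfer {p : ℕ} [Fact p.Prime] (D : DRData p) (P : HeckeAlg) : Prop :=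
  ∀ γ : Gamma0 p, ∃ γ' : Gamma0 p,
    (∀ f : CuspForm (Gamma0 p) 2, periodMap p f (Additive.ofMul γ') =
      periodMap p ((heckeEvalForms p 2 P : Module.End ℂ (CuspForm (Gamma0 p) 2)) f)
        (Additive.ofMul γ)) ∧
    (∀ f : CuspForm (Gamma0 p) 2, periodMap p f (Additive.ofMul (jConjGamma0 p γ')) =
      periodMap p ((heckeEvalForms p 2 P : Module.End ℂ (CuspForm (Gamma0 p) 2)) f)
        (Additive.ofMul (jConjGamma0 p γ))) ∧
    D.φ (Additive.ofMul γ') = Fermat.Agent.S16.eisEval p P * D.φ (Additive.ofMul γ)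

variable {p : ℕ} [Fact p.Prime]

theorem heckeTransfer_C (D : DRData p) (a : ℤ) : HeckeTransfer D (MvPolynomial.C a) := by
  intro γ
  have hev : ∀ f : CuspForm (Gamma0 p) 2,
      (heckeEvalForms p 2 (MvPolynomial.C a) : Module.End ℂ (CuspForm (Gamma0 p) 2)) f =
        a • f := by
    intro f
    rw [heckeEvalForms_C, Subalgebra.coe_algebraMap, Algebra.algebraMap_eq_smul_one,
      LinearMap.smul_apply, Module.End.one_apply]
  refine ⟨γ ^ a, fun f => ?_, fun f => ?_, ?_⟩
  · rw [hev, periodMap_zsmul', ofMul_zpow, map_zsmul]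
    rfl
  · rw [hev, periodMap_zsmul', map_zpow, ofMul_zpow, map_zsmul]
    rfl
  · rw [ofMul_zpow, map_zsmul, smul_eq_mul]
    congr 1
    simp [Fermat.Agent.S16.eisEval]

theorem heckeTransfer_add (D : DRData p) {P Q : HeckeAlg} (hP : HeckeTransfer D P)
    (hQ : HeckeTransfer D Q) : HeckeTransfer D (P + Q) := by
  intro γ
  obtain ⟨γ₁, h1, h1', h1''⟩ := hP γ
  obtain ⟨γ₂, h2, h2', h2''⟩ := hQ γ
  have hev : ∀ f : CuspForm (Gamma0 p) 2,
      (heckeEvalForms p 2 (P + Q) : Module.End ℂ (CuspForm (Gamma0 p) 2)) f =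
        (heckeEvalForms p 2 P : Module.End ℂ (CuspForm (Gamma0 p) 2)) f +
          (heckeEvalForms p 2 Q : Module.End ℂ (CuspForm (Gamma0 p) 2)) f := by
    intro f
    rw [map_add, Subalgebra.coe_add, LinearMap.add_apply]
  refine ⟨γ₁ * γ₂, fun f => ?_, fun f => ?_, ?_⟩
  · rw [hev, periodMap_add', ofMul_mul, map_add, h1, h2]
    rfl
  · rw [hev, periodMap_add', map_mul, ofMul_mul, map_add, h1', h2']
    rfl
  · rw [ofMul_mul, map_add, h1'', h2'', map_add, add_mul]

theorem heckeTransfer_mul_T (D : DRData p) {P : HeckeAlg} (hP : HeckeTransfer D P)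
    (n : Nat.Primes) (hn : ¬ (n : ℕ) ∣ p) : HeckeTransfer D (P * MvPolynomial.X n) := by
  haveI : Fact (n : ℕ).Prime := ⟨n.2⟩
  intro γ
  obtain ⟨γ₁, h1, h1', h1''⟩ := hP γ
  choose γ' hγ' using Fermat.Agent.S22.exists_heckeRep_mul hn γ₁
  have hev : ∀ f : CuspForm (Gamma0 p) 2,
      (heckeEvalForms p 2 (P * MvPolynomial.X n) : Module.End ℂ (CuspForm (Gamma0 p) 2)) f =
        (heckeEvalForms p 2 P : Module.End ℂ (CuspForm (Gamma0 p) 2))
          (CuspForm.heckeTLin 2 n.2 hn f) := by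
    intro f
    have hX : heckeEvalForms p 2 (MvPolynomial.X n) = heckeAlgebra.T n.2 hn (Set.notMem_empty _) :=
      heckeEvalForms_heckeGen_of_not_dvd hn
    rw [map_mul, hX, Subalgebra.coe_mul, Module.End.mul_apply, heckeAlgebra.coe_T]
  refine ⟨famProd γ', fun f => ?_, fun f => ?_, ?_⟩
  · rw [hev, ← h1, map_famProd]
    exact periodMap_heckeT_coset hn f γ₁ γ' (MulAction.toPerm (redMatrix (n : ℕ) (γ₁ : SL(2, ℤ))))
      hγ'
  · rw [hev, ← h1']
    have h := map_famProd ((periodMap p f).comp (MonoidHom.toAdditive (jConjGamma0 p))) γ'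
    simp only [AddMonoidHom.comp_apply, MonoidHom.toAdditive_apply_apply, toMul_ofMul] at h
    rw [h]
    exact periodMap_jConj_heckeT_coset hn f γ₁ γ'
      (MulAction.toPerm (redMatrix (n : ℕ) (γ₁ : SL(2, ℤ)))) hγ'
  · rw [map_famProd, D.sum_φ_heckeT hn γ₁ γ'
      (MulAction.toPerm (redMatrix (n : ℕ) (γ₁ : SL(2, ℤ)))) hγ', h1'']
    have : Fermat.Agent.S16.eisEval p (P * MvPolynomial.X n) =
        Fermat.Agent.S16.eisEval p P * (1 + (n : ℕ)) := by
      simp [Fermat.Agent.S16.eisEval, eisensteinSystem_of_not_dvd hn]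
    rw [this]
    ring

theorem heckeTransfer_mul_U (D : DRData p) {P : HeckeAlg} (hP : HeckeTransfer D P)
    (n : Nat.Primes) (hn : (n : ℕ) ∣ p) : HeckeTransfer D (P * MvPolynomial.X n) := by
  have hnp : (n : ℕ) = p := (Nat.prime_dvd_prime_iff_eq n.2 (Fact.out : p.Prime)).mp hn
  intro γ
  obtain ⟨γ₁, h1, h1', h1''⟩ := hP γ
  have hc0 : ((((γ₁ : Gamma0 p) : SL(2, ℤ)) 1 0 : ℤ) : ZMod p) = 0 := Gamma0_mem.mp γ₁.2
  have hcos := Fermat.Agent.S22.heckeU_coset (dvd_refl p) γ₁
  choose γ' y hy hγ' using hcos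
  have hev : ∀ f : CuspForm (Gamma0 p) 2,
      (heckeEvalForms p 2 (P * MvPolynomial.X n) : Module.End ℂ (CuspForm (Gamma0 p) 2)) f =
        (heckeEvalForms p 2 P : Module.End ℂ (CuspForm (Gamma0 p) 2))
          (CuspForm.heckeULin 2 (dvd_refl p) f) := by
    intro f
    have hX : heckeEvalForms p 2 (MvPolynomial.X n) = heckeAlgebra.U n.2 hn (Set.notMem_empty _) :=
      heckeEvalForms_heckeGen_of_dvd hn
    rw [map_mul, hX, Subalgebra.coe_mul, Module.End.mul_apply, heckeAlgebra.coe_U]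
    congr 1
    subst hnp
    rfl
  have hγ'' : ∀ x : ZMod p, ModularForm.heckeMatrix p x.val * mapGL ℝ ((γ₁ : Gamma0 p) : SL(2, ℤ)) =
      mapGL ℝ (γ' x : SL(2, ℤ)) *
        ModularForm.heckeMatrix p ((affinePerm ((γ₁ : Gamma0 p) : SL(2, ℤ)) hc0) x).val := by
    intro x
    have := hγ' x
    rw [hy x] at this
    exact this
  refine ⟨famProd γ', fun f => ?_, fun f => ?_, ?_⟩
  · rw [hev, ← h1, map_famProd]
    exact periodMap_heckeU_coset f γ₁ γ' _ hγ''
  · rw [hev, ← h1']
    have h := map_famProd ((periodMap p f).comp (MonoidHom.toAdditive (jConjGamma0 p))) γ'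
    simp only [AddMonoidHom.comp_apply, MonoidHom.toAdditive_apply_apply, toMul_ofMul] at h
    rw [h]
    exact periodMap_jConj_heckeU_coset f γ₁ γ' _ hγ''
  · rw [map_famProd, D.sum_φ_heckeU γ₁ γ' _ hγ'', h1'']
    have : Fermat.Agent.S16.eisEval p (P * MvPolynomial.X n) =
        Fermat.Agent.S16.eisEval p P := by
      simp [Fermat.Agent.S16.eisEval, eisensteinSystem_of_dvd hn]
    rw [this]

theorem heckeTransfer {p : ℕ} [Fact p.Prime] (D : DRData p) (P : HeckeAlg) :
    HeckeTransfer D P := by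
  induction P using MvPolynomial.induction_on with
  | C a => exact heckeTransfer_C D a
  | add P Q hP hQ => exact heckeTransfer_add D hP hQ
  | mul_X P n hP =>
    by_cases hn : (n : ℕ) ∣ p
    · exact heckeTransfer_mul_U D hP n hn
    · exact heckeTransfer_mul_T D hP n hn

end Fermat.Agent.S16.LB
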