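import Fermat.Agent.S16.LB.Defs
import Fermat.Agent.S16.LB.Crossing
import Fermat.Agent.S16.LB.Residue
import Fermat.Agent.S16.LB.DR
import Fermat.Agent.S16.LB.Transfer
import Fermat.Agent.S16.LB.Ogg
import Fermat.Agent.S16.Toolkit
import Fermat.Agent.S21

/-!
# S16 lower bound: assembly
Owner: helper22.

`X := (1 - p) h - φ` kills `T`, so it is parabolic (`Residue.lean`), so it is
`periodHomPair (f, g)` (S21).  For `P` annihilating `S₂(Γ₀(p))` and `γ'` from `heckeTransfer`: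
`X γ' = 0`, i.e. `(1 - p) h γ' = φ γ' = P(eis) φ γ`.  So `(p - 1) ∣ P(eis) φ γ` for all `γ`;
with `g = gcd (p - 1, P(eis))`, `m = (p - 1) / g` divides all `φ γ`, so `m ∣ 12` (Ogg), so
`n = (p - 1) / gcd (p - 1, 12)` divides `g`, which divides `P(eis)`.
-/

set_option autoImplicit false
set_option linter.unusedSectionVars false

namespace Fermat.Agent.S16.LB

open CongruenceSubgroup UpperHalfPlane ModularCurve ModularCurve.Period CuspForm
open scoped MatrixGroups Manifold Real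

variable {p : ℕ} [Fact p.Prime]

/-- The crossing homomorphism in additive form. -/
noncomputable def crossAdd (p : ℕ) : Additive (Gamma0 p) →+ ℤ :=
  MonoidHom.toAdditiveLeft (Fermat.Agent.S16.Crossing.crossHomGamma0 p)

theorem crossAdd_gT : crossAdd p (Additive.ofMul (gT p)) = 1 := by
  have h := Fermat.Agent.S16.Crossing.crossHomGamma0_T p (Fact.out : p.Prime).two_le
  show Multiplicative.toAdd (Fermat.Agent.S16.Crossing.crossHomGamma0 p (gT p)) = 1
  have e : gT p = Fermat.Agent.S16.Crossing.TGamma0 p := rfl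
  rw [e, h]
  rfl

/-- The parabolic class `X = (1 - p) h - φ`. -/
noncomputable def parX (D : DRData p) : Additive (Gamma0 p) →+ ℂ :=
  ((1 : ℂ) - (p : ℂ)) • ((Int.castAddHom ℂ).comp (crossAdd p)) - (Int.castAddHom ℂ).comp D.φ

theorem parX_apply (D : DRData p) (γ : Additive (Gamma0 p)) :
    parX D γ = ((1 : ℂ) - (p : ℂ)) * (crossAdd p γ : ℂ) - (D.φ γ : ℂ) := rfl

theorem parX_mem (D : DRData p) : parX D ∈ parabolicHoms ℂ (Gamma0 p) ℂ := by
  apply mem_parabolicHoms_of_gT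
  rw [parX_apply, crossAdd_gT, D.φ_gT]
  push_cast
  ring

/-- Step 4: `(p - 1) ∣ P(eis) · φ γ` when `P` annihilates the cusp forms. -/
theorem sub_one_dvd_eisEval_mul_φ (D : DRData p) (P : HeckeAlg)
    (hP : heckeEvalForms p 2 P = 0) (γ : Gamma0 p) :
    ((p : ℤ) - 1) ∣ Fermat.Agent.S16.eisEval p P * D.φ (Additive.ofMul γ) := by
  have hX := parX_mem D
  rw [← (Fermat.Agent.S21.result p).2] at hX
  obtain ⟨⟨f, g⟩, hfg⟩ := hX
  obtain ⟨γ', h1, h2, h3⟩ := heckeTransfer D P γ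
  have hP0 : ∀ f : CuspForm (Gamma0 p) 2,
      (heckeEvalForms p 2 P : Module.End ℂ (CuspForm (Gamma0 p) 2)) f = 0 := by
    intro f
    rw [hP]
    rfl
  have e1 : ∀ f : CuspForm (Gamma0 p) 2, periodMap p f (Additive.ofMul γ') = 0 := by
    intro f
    rw [h1, hP0, periodMap_zero']
    rfl
  have e2 : ∀ f : CuspForm (Gamma0 p) 2,
      periodMap p f (Additive.ofMul (jConjGamma0 p γ')) = 0 := by
    intro f
    rw [h2, hP0, periodMap_zero']
    rfl
  have hX0 : parX D (Additive.ofMul γ') = 0 := by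
    rw [← hfg, Fermat.Agent.S21.periodHomPair_apply]
    simp only [AddMonoidHom.add_apply, AddMonoidHom.sub_apply, charInvolution_apply,
      toMul_ofMul, e1, e2]
    ring
  rw [parX_apply, h3] at hX0
  refine ⟨-crossAdd p (Additive.ofMul γ'), ?_⟩
  have : ((Fermat.Agent.S16.eisEval p P * D.φ (Additive.ofMul γ) : ℤ) : ℂ) =
      (((p : ℤ) - 1) * -crossAdd p (Additive.ofMul γ') : ℤ) := by
    push_cast at hX0 ⊢
    linear_combination -hX0
  exact_mod_cast this

/-- The `m`-th root `exp (L / m)` of the modular unit, when `m` divides all values of `φ`. -/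
theorem exists_root (D : DRData p) (m : ℕ) (hm : 0 < m)
    (hdvd : ∀ γ : Gamma0 p, (m : ℤ) ∣ D.φ (Additive.ofMul γ)) :
    ∃ H : ℍ → ℂ, MDifferentiable 𝓘(ℂ) 𝓘(ℂ) H ∧
      (∀ (γ : Gamma0 p) (z : ℍ), H ((γ : SL(2, ℤ)) • z) = H z) ∧
      ∀ z : ℍ, H z ^ m = drUnit p z := by
  have hm' : (m : ℂ) ≠ 0 := by exact_mod_cast hm.ne'
  refine ⟨fun z => Complex.exp (D.L z / m), ?_, ?_, ?_⟩
  · have hL := D.mdiff
    rw [UpperHalfPlane.mdifferentiable_iff] at hL ⊢
    exact (hL.div_const _).cexp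
  · intro γ z
    obtain ⟨k, hk⟩ := hdvd γ
    have h := D.L_smul γ z
    have e : D.L ((γ : SL(2, ℤ)) • z) / m = D.L z / m + (k : ℂ) * (2 * π * Complex.I) := by
      have h' : D.L ((γ : SL(2, ℤ)) • z) =
          D.L z + 2 * π * Complex.I * ((m : ℂ) * (k : ℂ)) := by
        rw [hk] at h
        push_cast at h
        linear_combination h
      rw [h']
      field_simp
    show Complex.exp (D.L ((γ : SL(2, ℤ)) • z) / m) = Complex.exp (D.L z / m)
    rw [e, Complex.exp_add, Complex.exp_int_mul_two_pi_mul_I, mul_one]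
  · intro z
    show Complex.exp (D.L z / m) ^ m = drUnit p z
    rw [← Complex.exp_nat_mul, mul_div_cancel₀ _ hm', D.exp_L]

/-- Arithmetic: from `(p - 1) ∣ N φ` for all values `φ` and Ogg's bound. -/
theorem eisensteinNumerator_dvd_of {ι : Type*} (φ : ι → ℤ) (N : ℤ)
    (h1 : ∀ i, ((p : ℤ) - 1) ∣ N * φ i)
    (hOgg : ∀ m : ℕ, 0 < m → (∀ i, (m : ℤ) ∣ φ i) → m ∣ 12) :
    (eisensteinNumerator p : ℤ) ∣ N := by
  have hp2 : 2 ≤ p := (Fact.out : p.Prime).two_le
  have hp1 : 0 < p - 1 := by omega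
  have hcast : ((p - 1 : ℕ) : ℤ) = (p : ℤ) - 1 := by
    rw [Nat.cast_sub (by omega)]
    simp
  set g : ℕ := Nat.gcd (p - 1) N.natAbs with hg
  have hgpos : 0 < g := Nat.gcd_pos_of_pos_left _ hp1
  have hgdvd : g ∣ p - 1 := Nat.gcd_dvd_left _ _
  have hgN : (g : ℤ) ∣ N := by
    rw [← Int.natAbs_dvd_natAbs, Int.natAbs_natCast]
    exact Nat.gcd_dvd_right _ _
  obtain ⟨m, hm⟩ := hgdvd
  obtain ⟨N', hN'⟩ := hgN
  have hmpos : 0 < m := by
    rcases Nat.eq_zero_or_pos m with h | h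
    · rw [h, mul_zero] at hm; omega
    · exact h
  have hcop : IsCoprime (m : ℤ) N' := by
    rw [Int.isCoprime_iff_gcd_eq_one]
    have h2 : Nat.gcd (g * m) (g * N'.natAbs) = g := by
      rw [← hm]
      have : N.natAbs = g * N'.natAbs := by
        rw [hN', Int.natAbs_mul, Int.natAbs_natCast]
      rw [← this]
    rw [Nat.gcd_mul_left] at h2
    have h3 : Nat.gcd m N'.natAbs = 1 := by
      have := Nat.eq_of_mul_eq_mul_left hgpos (h2.trans (mul_one g).symm)
      exact this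
    rw [Int.gcd, Int.natAbs_natCast]
    exact h3
  have hmφ : ∀ i, (m : ℤ) ∣ φ i := by
    intro i
    have h := h1 i
    rw [← hcast, hm, hN'] at h
    push_cast at h
    have h' : (m : ℤ) ∣ N' * φ i := by
      have hg0 : (g : ℤ) ≠ 0 := by exact_mod_cast hgpos.ne'
      rw [mul_assoc] at h
      exact (mul_dvd_mul_iff_left hg0).mp h
    exact hcop.dvd_of_dvd_mul_left h'
  have hm12 : m ∣ 12 := hOgg m hmpos hmφ
  have hmp : m ∣ p - 1 := ⟨g, by rw [hm, mul_comm]⟩
  have hmd : m ∣ Nat.gcd (p - 1) 12 := Nat.dvd_gcd hmp hm12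
  obtain ⟨k, hk⟩ := hmd
  have hd : eisensteinNumerator p * Nat.gcd (p - 1) 12 = p - 1 :=
    Nat.div_mul_cancel (Nat.gcd_dvd_left _ _)
  have hng : eisensteinNumerator p * k = g := by
    have : m * (eisensteinNumerator p * k) = m * g := by
      rw [hk] at hd
      calc m * (eisensteinNumerator p * k) = eisensteinNumerator p * (m * k) := by ring
        _ = p - 1 := hd
        _ = m * g := by rw [hm, mul_comm]
    exact Nat.eq_of_mul_eq_mul_left hmpos this
  have : (eisensteinNumerator p : ℤ) ∣ (g : ℤ) := by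
    exact_mod_cast (Dvd.intro k hng : eisensteinNumerator p ∣ g)
  exact this.trans ⟨N', hN'⟩

/-- **Lower bound.** -/
theorem lowerBound_main (p : ℕ) [Fact p.Prime] : Fermat.Agent.S16.LowerBound p := by
  intro P hP
  obtain ⟨D⟩ := nonempty_drData p
  obtain ⟨T⟩ := Fermat.Agent.S16.nonempty_cuspZeroData p
  refine eisensteinNumerator_dvd_of (fun γ : Gamma0 p => D.φ (Additive.ofMul γ)) _
    (fun γ => sub_one_dvd_eisEval_mul_φ D P hP γ) ?_
  intro m hm hdvd
  obtain ⟨H, hH, hinv, hpow⟩ := exists_root D m hm hdvd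
  exact dvd_twelve_of_root T m hm H hH hinv hpow

end Fermat.Agent.S16.LB
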