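import Mathlib
import Fermat.Prelude.Def_ModularCurve_PeriodHomPair
import Fermat.Prelude.Sol.S_ModularForm_heckeT_slash_eq_self_of_mem_Gamma0
import Fermat.Agent.S16.Defs

/-!
# S16 lower bound (Dedekind–Rademacher route): shared definitions

Sub-architect: helper22.  Blueprint: `NOTES/S16-LB-blueprint.md`.
Namespace `Fermat.Agent.S16.LB`.  This file is the contract between the pieces of the lower
bound; it contains no `sorry`.

* `gT p`, `gU p` : the parabolic generators `T = (1 1; 0 1)` and `U = (1 0; p 1)` of `Γ₀(p)`.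
* `drUnit p`     : the modular unit `u₀(z) = Δ(z) / Δ(p z)`.
* `DRData p`     : a holomorphic logarithm `L` of `u₀` with its (integer valued) period
                   homomorphism `φ : Γ₀(p) → ℤ`, `L(γ z) - L(z) = 2 π i φ(γ)`.
* `sum_period_of_coset` : the abstract coset lemma (Hecke operators on equivariant primitives).
-/

set_option autoImplicit false

namespace Fermat.Agent.S16.LB

open CongruenceSubgroup UpperHalfPlane ModularCurve.Period Matrix.SpecialLinearGroup
open scoped MatrixGroups ModularForm Manifold Real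

/-- `T = (1 1; 0 1)` as an element of `Γ₀(p)`. -/
def gT (p : ℕ) : Gamma0 p :=
  ⟨ModularGroup.T, by rw [Gamma0_mem]; simp [ModularGroup.T]⟩

/-- `U = (1 0; p 1)` as an element of `SL(2, ℤ)`. -/
def gUSL (p : ℕ) : SL(2, ℤ) :=
  ⟨!![1, 0; (p : ℤ), 1], by simp [Matrix.det_fin_two]⟩

theorem coe_gUSL (p : ℕ) :
    ((gUSL p : SL(2, ℤ)) : Matrix (Fin 2) (Fin 2) ℤ) = !![1, 0; (p : ℤ), 1] := rfl

theorem gUSL_mem (p : ℕ) : gUSL p ∈ Gamma0 p := by
  rw [Gamma0_mem, coe_gUSL]
  simp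

/-- `U = (1 0; p 1)` as an element of `Γ₀(p)`. -/
def gU (p : ℕ) : Gamma0 p := ⟨gUSL p, gUSL_mem p⟩

@[simp] theorem coe_gT (p : ℕ) : ((gT p : Gamma0 p) : SL(2, ℤ)) = ModularGroup.T := rfl

theorem coe_gU (p : ℕ) :
    (((gU p : Gamma0 p) : SL(2, ℤ)) : Matrix (Fin 2) (Fin 2) ℤ) = !![1, 0; (p : ℤ), 1] := rfl

/-- The modular unit `u₀(z) = Δ(z) / Δ(p z)` on `Γ₀(p)`. -/
noncomputable def drUnit (p : ℕ) (z : ℍ) : ℂ :=
  ModularForm.discriminant z / ModularForm.discriminant (ModularForm.heckeDiagMatrix p • z)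

/-- Dedekind–Rademacher data: a holomorphic logarithm `L` of the modular unit `u₀ = Δ(z)/Δ(pz)`
together with its integer valued period homomorphism `φ`. -/
structure DRData (p : ℕ) where
  /-- the logarithm -/
  L : ℍ → ℂ
  /-- the Dedekind–Rademacher homomorphism -/
  φ : Additive (Gamma0 p) →+ ℤ
  mdiff : MDifferentiable 𝓘(ℂ) 𝓘(ℂ) L
  exp_L : ∀ z : ℍ, Complex.exp (L z) = drUnit p z
  L_smul : ∀ (γ : Gamma0 p) (z : ℍ),
    L ((γ : SL(2, ℤ)) • z) - L z = 2 * π * Complex.I * (φ (Additive.ofMul γ) : ℂ)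

/-- `L / (2πi)` is an equivariant primitive in the sense of the Prelude. -/
theorem DRData.isEquivariantPrimitive {p : ℕ} (D : DRData p) :
    IsEquivariantPrimitive (Gamma0 p) fun z => D.L z / (2 * π * Complex.I) := by
  intro γ
  refine ⟨(D.φ (Additive.ofMul γ) : ℂ), fun z => ?_⟩
  have h := D.L_smul γ z
  have hpi : (2 * π * Complex.I : ℂ) ≠ 0 := by
    simp [Real.pi_ne_zero, Complex.I_ne_zero]
  rw [← sub_div, h, mul_div_cancel_left₀ _ hpi]

theorem DRData.periodHom_apply {p : ℕ} (D : DRData p) (γ : Gamma0 p) :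
    D.isEquivariantPrimitive.periodHom (Additive.ofMul γ) = (D.φ (Additive.ofMul γ) : ℂ) := by
  rw [IsEquivariantPrimitive.periodHom_apply, ← D.isEquivariantPrimitive.sub_eq_period γ I]
  have h := D.L_smul γ I
  have hpi : (2 * π * Complex.I : ℂ) ≠ 0 := by
    simp [Real.pi_ne_zero, Complex.I_ne_zero]
  rw [← sub_div, h, mul_div_cancel_left₀ _ hpi]

/-- **Abstract coset lemma.**  If `F`, `F'` are equivariant primitives for `Γ`, the matrices
`α i` satisfy `∑ i, F (α i • z) = F' z + c`, and `α i * γ = γ' i * α (e i)` for a permutation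
`e`, then `∑ i, period_F (γ' i) = period_F' γ`. -/
theorem sum_period_of_coset {Γ : Subgroup SL(2, ℤ)} {ι : Type*} [Fintype ι] {F F' : ℍ → ℂ}
    (hF : IsEquivariantPrimitive Γ F) (hF' : IsEquivariantPrimitive Γ F')
    (α : ι → GL (Fin 2) ℝ) (c : ℂ) (h : ∀ z : ℍ, ∑ i, F (α i • z) = F' z + c)
    (γ : Γ) (γ' : ι → Γ) (e : Equiv.Perm ι)
    (hγ : ∀ i, α i * mapGL ℝ (γ : SL(2, ℤ)) = mapGL ℝ (γ' i : SL(2, ℤ)) * α (e i)) :
    ∑ i, hF.periodHom (Additive.ofMul (γ' i)) = hF'.periodHom (Additive.ofMul γ) := by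
  have key : ∀ i, F (α i • ((γ : SL(2, ℤ)) • I)) =
      F (α (e i) • I) + hF.periodHom (Additive.ofMul (γ' i)) := by
    intro i
    have h1 : α i • ((γ : SL(2, ℤ)) • I) = ((γ' i : Γ) : SL(2, ℤ)) • (α (e i) • I) := by
      change α i • (mapGL ℝ (γ : SL(2, ℤ)) • I) = mapGL ℝ ((γ' i : Γ) : SL(2, ℤ)) • (α (e i) • I)
      rw [← mul_smul, ← mul_smul, hγ i]
    rw [h1, IsEquivariantPrimitive.periodHom_apply, ← hF.sub_eq_period (γ' i) (α (e i) • I)]
    ring
  have h2 := h ((γ : SL(2, ℤ)) • I)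
  rw [Finset.sum_congr rfl fun i _ => key i, Finset.sum_add_distrib,
    Equiv.sum_comp e fun i => F (α i • I), h I] at h2
  rw [IsEquivariantPrimitive.periodHom_apply hF', ← hF'.sub_eq_period γ I]
  linear_combination h2

end Fermat.Agent.S16.LB
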